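/-
Programme Q (S58), Team B, brick (a2) (helper90): **the Frobenius relation at the generic point.**

`r` a prime, `W` a Weierstrass curve over `ZMod r` with `Δ ≠ 0`, `K = W.FunctionField`,
`P₀ ∈ W(K)` the generic point, `φ` the `r`-power Frobenius on `W(K)`.  From MANIN'S LEMMA
`deg (P₀ - φ P₀) = #W(𝔽_r)` (a hypothesis here) we prove

  `φ (φ P₀) - (r + 1 - #W(𝔽_r)) • φ P₀ + r • P₀ = 0`.

Ingredients: the degree and its exact parallelogram law (`Q58R/Deg`), the quadratic algebra
(`ES/Q58/QuadRel18.quad_rel`), multiplicativity of the degree along substitution embeddings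
(`FrobRel/CompSubst27`), the trivial bound `#W(𝔽_r) ≤ 2 r + 1` (`ES/Q58/CardBound20`), and, to pass
from "degree `0`" to "zero", the substitutions `P₀ ↦ 2 P₀`, `P₀ ↦ 3 P₀`.
-/
import Mathlib
import Fermat.Agent.Q58R.Deg
import Fermat.Agent.ES.Q58.QuadRel18
import Fermat.Agent.ES.Q58.CardBound20
import Fermat.Agent.FrobRel.ManinDefs
import Fermat.Agent.FrobRel.CompSubst27
import Fermat.Agent.FrobRel.Specialize32

set_option autoImplicit false
set_option linter.unusedSectionVars false

open Polynomial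

namespace Fermat.Agent.FrobRelB.Generic

open WeierstrassCurve WeierstrassCurve.Affine
open Fermat.Agent.ES.Q58.IotaDescent23 Fermat.Agent.ES.Q58.SubstEmb17
open Fermat.Agent.ES.Q58.PLPoly2 Fermat.Agent.ES.Q58.QuadRel18
open Fermat.Agent.Q58R.Deg Fermat.Agent.FrobRel.ManinDefs Fermat.Agent.FrobRel.CompSubst27
open Fermat.Agent.FrobRel.Specialize32 (psi psi_add psi_zero map_psi)

/-! ### multiplicativity of the degree along substitution embeddings (any base field) -/

section Mult

variable {k : Type*} [Field k] {W : Affine k} [DecidableEq W.FunctionField]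

/-- a point with an `x`-ratio of positive height is affine, with transcendental `x`-coordinate. -/
theorem exists_some_of_ht_pos {R : (W⁄W.FunctionField).Point} {A B : k[X]}
    (hAB : IsXRatio W R A B) (hpos : 0 < ht A B) :
    ∃ (xR yR : W.FunctionField) (h : (W⁄W.FunctionField).Nonsingular xR yR),
      R = Point.some xR yR h ∧ Transcendental k xR := by
  rcases R with _ | ⟨xR, yR, h⟩
  · exfalso
    have h0 : ht A B = ht (1 : k[X]) 0 := hAB.ht_eq isXRatio_zero
    rw [h0] at hpos
    simp [ht] at hpos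
  · refine ⟨xR, yR, h, rfl, ?_⟩
    obtain ⟨hc, e⟩ := (isXRatio_some_iff h).mp hAB
    exact transcendental_of_isCoprime W hc hpos e

/-- `x`-ratios along a substitution embedding. -/
theorem isXRatio_map_substHom {xR yR : W.FunctionField}
    (h : (W⁄W.FunctionField).Nonsingular xR yR) (hX : Transcendental k xR) {A B : k[X]}
    (hAB : IsXRatio W (Point.some xR yR h) A B) {S : (W⁄W.FunctionField).Point} {U V : k[X]}
    (hS : IsXRatio W S U V) :
    ∃ U' V' : k[X], IsXRatio W (Point.map (W' := W) (substHom W h.1 hX) S) U' V' ∧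
      ht U' V' = ht U V * ht A B := by
  obtain ⟨hcAB, eAB⟩ := (isXRatio_some_iff h).mp hAB
  rcases S with _ | ⟨xS, yS, hxy⟩
  · refine ⟨1, 0, isXRatio_zero, ?_⟩
    have h0 : ht U V = ht (1 : k[X]) 0 := hS.ht_eq isXRatio_zero
    rw [h0]
    simp [ht]
  · obtain ⟨hcUV, eUV⟩ := (isXRatio_some_iff hxy).mp hS
    obtain ⟨U', V', hc', hht, e'⟩ := exists_coprime_substHom W h.1 hX hcAB hcUV eAB eUV
    refine ⟨U', V', ?_, hht⟩
    rw [Point.map_some, isXRatio_some_iff]
    exact ⟨hc', e'⟩

/-- **multiplicativity of the degree.** -/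
theorem deg_map_substHom (hΔ : W.Δ ≠ 0) {xR yR : W.FunctionField}
    (h : (W⁄W.FunctionField).Nonsingular xR yR) (hX : Transcendental k xR)
    (hR : Point.some xR yR h ∈ oddPoints W) {S : (W⁄W.FunctionField).Point}
    (hS : S ∈ oddPoints W) :
    deg W (Point.map (W' := W) (substHom W h.1 hX) S) = deg W S * deg W (Point.some xR yR h) := by
  obtain ⟨A, B, hAB⟩ := exists_isXRatio hΔ hR
  obtain ⟨U, V, hUV⟩ := exists_isXRatio hΔ hS
  obtain ⟨U', V', h', hht⟩ := isXRatio_map_substHom h hX hAB hUV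
  rw [deg_eq_of_isXRatio h', deg_eq_of_isXRatio hAB, deg_eq_of_isXRatio hUV, hht]

/-- a point of degree `0` with an `x`-ratio has a constant `x`-coordinate. -/
theorem exists_const_of_deg_eq_zero {xS yS : W.FunctionField}
    (h : (W⁄W.FunctionField).Nonsingular xS yS) {U V : k[X]}
    (hUV : IsXRatio W (Point.some xS yS h) U V) (h0 : ht U V = 0) :
    ∃ c : k, xS = algebraMap k W.FunctionField c := by
  obtain ⟨-, e⟩ := (isXRatio_some_iff h).mp hUV
  have hV0 : V ≠ 0 := hUV.ne_zero_of_some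
  have hU : U.natDegree = 0 := by
    have := natDegree_le_ht_left U V; omega
  have hV : V.natDegree = 0 := by
    have := natDegree_le_ht_right U V; omega
  rw [natDegree_eq_zero] at hU hV
  obtain ⟨u, rfl⟩ := hU
  obtain ⟨v, rfl⟩ := hV
  have hv : v ≠ 0 := by
    rintro rfl
    exact hV0 (map_zero _)
  refine ⟨u / v, ?_⟩
  have e1 : cK W (C v) = algebraMap k W.FunctionField v :=
    (algebraMap_eq_coordinateRing W v).symm
  have e2 : cK W (C u) = algebraMap k W.FunctionField u :=
    (algebraMap_eq_coordinateRing W u).symm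
  rw [e1, e2] at e
  have hv' : algebraMap k W.FunctionField v ≠ 0 := by
    rw [Ne, map_eq_zero_iff _ (algebraMap k W.FunctionField).injective]; exact hv
  rw [map_div₀, eq_div_iff hv', e]

/-- an endomorphism of the function field moves a point with constant `x`-coordinate to `± itself`. -/
theorem map_eq_or_eq_neg_of_const (σ : W.FunctionField →ₐ[k] W.FunctionField)
    {xS yS : W.FunctionField} (h : (W⁄W.FunctionField).Nonsingular xS yS) {c : k}
    (hc : xS = algebraMap k W.FunctionField c) :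
    Point.map (W' := W) σ (Point.some xS yS h) = Point.some xS yS h ∨
      Point.map (W' := W) σ (Point.some xS yS h) = -Point.some xS yS h := by
  apply Point.xRep_eq_xRep_iff.mp
  rw [Point.map_some, Point.xRep_some, Point.xRep_some, hc, AlgHom.commutes]

end Mult

/-! ### the generic relation -/

section Rel

variable {r : ℕ} [Fact r.Prime] (W : Affine (ZMod r)) [DecidableEq W.FunctionField]

/-- Frobenius on the points over the function field. -/
noncomputable abbrev phi : (W⁄W.FunctionField).Point →+ (W⁄W.FunctionField).Point :=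
  Point.map (W' := W) (frobAlg r W.FunctionField)

variable {W}

theorem phi_mem_oddPoints {R : (W⁄W.FunctionField).Point} (hR : R ∈ oddPoints W) :
    phi W R ∈ oddPoints W :=
  map_pow_mem_oddPoints (frobAlg r W.FunctionField) (fun z => frobAlg_apply _ z) hR

theorem deg_phi (hΔ : W.Δ ≠ 0) {R : (W⁄W.FunctionField).Point} (hR : R ∈ oddPoints W) :
    deg W (phi W R) = r * deg W R :=
  deg_map_pow hΔ (Fact.out : r.Prime).ne_zero (frobAlg r W.FunctionField)
    (fun z => frobAlg_apply _ z) hR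

/-- every `ZMod r`-endomorphism of the function field commutes with Frobenius on points. -/
theorem map_phi (σ : W.FunctionField →ₐ[ZMod r] W.FunctionField)
    (S : (W⁄W.FunctionField).Point) :
    Point.map (W' := W) σ (phi W S) = phi W (Point.map (W' := W) σ S) := by
  unfold phi
  rw [Point.map_map, Point.map_map, comp_frobAlg]

theorem psi_nsmul (a b : ℤ) (n : ℕ) (P : (W⁄W.FunctionField).Point) :
    psi W a b (frobAlg r W.FunctionField) (n • P) = n • psi W a b (frobAlg r W.FunctionField) P := by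
  induction n with
  | zero => rw [zero_nsmul, zero_nsmul, psi_zero]
  | succ n ih => rw [succ_nsmul, succ_nsmul, psi_add, ih]

/-- the degree on the odd points, as an integer valued function on the subgroup. -/
noncomputable def dInt (W : Affine (ZMod r)) [DecidableEq W.FunctionField] :
    ↥(oddPoints W) → ℤ := fun R => (deg W (R : (W⁄W.FunctionField).Point) : ℤ)

theorem dInt_PL (hΔ : W.Δ ≠ 0) (x y : ↥(oddPoints W)) :
    dInt W (x + y) + dInt W (x - y) = 2 * dInt W x + 2 * dInt W y := by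
  unfold dInt
  rw [AddSubgroup.coe_add, AddSubgroup.coe_sub]
  exact_mod_cast deg_add_add_deg_sub hΔ x.2 y.2

/-- **the quadratic relation has degree `0` at the generic point.** -/
theorem deg_rel_eq_zero (hΔ : W.Δ ≠ 0)
    (hManin : deg W (genericPoint W hΔ - phi W (genericPoint W hΔ)) = Nat.card W.Point) :
    deg W (phi W (phi W (genericPoint W hΔ))
      - ((r : ℤ) + 1 - (Nat.card W.Point : ℤ)) • phi W (genericPoint W hΔ)
      + (r : ℤ) • genericPoint W hΔ) = 0 := by
  set P₀ := genericPoint W hΔ with hP₀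
  have hP₀odd : P₀ ∈ oddPoints W := genericPoint_mem_oddPoints W hΔ
  have h1odd : phi W P₀ ∈ oddPoints W := phi_mem_oddPoints hP₀odd
  have h2odd : phi W (phi W P₀) ∈ oddPoints W := phi_mem_oddPoints h1odd
  let e0 : ↥(oddPoints W) := ⟨P₀, hP₀odd⟩
  let e1 : ↥(oddPoints W) := ⟨phi W P₀, h1odd⟩
  let e2 : ↥(oddPoints W) := ⟨phi W (phi W P₀), h2odd⟩
  have hPL := dInt_PL hΔ
  have d0 : dInt W e0 = 1 := by
    show ((deg W P₀ : ℕ) : ℤ) = 1
    rw [hP₀, deg_genericPoint hΔ]; rfl
  have d1 : dInt W e1 = (r : ℤ) := by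
    show ((deg W (phi W P₀) : ℕ) : ℤ) = r
    rw [deg_phi hΔ hP₀odd, hP₀, deg_genericPoint hΔ, mul_one]
  have d2 : dInt W e2 = (r : ℤ) ^ 2 := by
    show ((deg W (phi W (phi W P₀)) : ℕ) : ℤ) = (r : ℤ) ^ 2
    rw [deg_phi hΔ h1odd, deg_phi hΔ hP₀odd, hP₀, deg_genericPoint hΔ, mul_one]
    push_cast; ring
  have d12 : dInt W (e1 + e2) = (r : ℤ) * dInt W (e0 + e1) := by
    show ((deg W (phi W P₀ + phi W (phi W P₀)) : ℕ) : ℤ) = (r : ℤ) * ((deg W (P₀ + phi W P₀) : ℕ) : ℤ)
    rw [← map_add, deg_phi hΔ (add_mem hP₀odd h1odd)]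
    push_cast; ring
  -- the value of `d (e0 - e1)`
  have dm : dInt W (e0 - e1) = (Nat.card W.Point : ℤ) := by
    show ((deg W (P₀ - phi W P₀) : ℕ) : ℤ) = _
    rw [hManin]
  -- `d (e0 + e1) ≥ 1`
  have hcard : Nat.card W.Point ≤ 2 * r + 1 := by
    have := Fermat.Agent.ES.Q58.CardBound20.card_point_le W
    rwa [ZMod.card] at this
  have dp : dInt W (e0 + e1) = 2 + 2 * (r : ℤ) - (Nat.card W.Point : ℤ) := by
    have := hPL e0 e1
    rw [d0, d1, dm] at this
    linarith
  have hpos : 0 < deg W (P₀ + phi W P₀) := by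
    have h1 : ((deg W (P₀ + phi W P₀) : ℕ) : ℤ) = 2 + 2 * (r : ℤ) - (Nat.card W.Point : ℤ) := dp
    have h2 : ((Nat.card W.Point : ℕ) : ℤ) ≤ 2 * (r : ℤ) + 1 := by exact_mod_cast hcard
    have : (0 : ℤ) < ((deg W (P₀ + phi W P₀) : ℕ) : ℤ) := by rw [h1]; linarith
    exact_mod_cast this
  -- multiplicativity along the substitution `P₀ ↦ P₀ + φ P₀`
  have hRodd : P₀ + phi W P₀ ∈ oddPoints W := add_mem hP₀odd h1odd
  obtain ⟨A, B, hAB⟩ := exists_isXRatio hΔ hRodd
  have hposAB : 0 < ht A B := by rwa [← deg_eq_of_isXRatio hAB]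
  obtain ⟨xR, yR, h, hReq, hX⟩ := exists_some_of_ht_pos hAB hposAB
  have hprod : dInt W (e0 - e2) = dInt W (e0 - e1) * dInt W (e0 + e1) := by
    show ((deg W (P₀ - phi W (phi W P₀)) : ℕ) : ℤ) =
      ((deg W (P₀ - phi W P₀) : ℕ) : ℤ) * ((deg W (P₀ + phi W P₀) : ℕ) : ℤ)
    have hRodd' : Point.some xR yR h ∈ oddPoints W := hReq ▸ hRodd
    have hm := deg_map_substHom hΔ h hX hRodd' (sub_mem hP₀odd h1odd)
    have hσP₀ : Point.map (W' := W) (substHom W h.1 hX) P₀ = Point.some xR yR h :=
      map_substHom_genericPoint W hΔ h hX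
    have hσ : Point.map (W' := W) (substHom W h.1 hX) (P₀ - phi W P₀) =
        P₀ - phi W (phi W P₀) := by
      rw [map_sub, map_phi, hσP₀, ← hReq, map_add]
      abel
    rw [hσ, ← hReq] at hm
    rw [hm]
    push_cast; ring
  have key := quad_rel hPL e0 e1 e2 (r : ℤ) d0 d1 d2 d12 hprod
  rw [dm] at key
  have hcoe : ((e2 - ((1 : ℤ) + (r : ℤ) - (Nat.card W.Point : ℤ)) • e1 + (r : ℤ) • e0 :
      ↥(oddPoints W)) : (W⁄W.FunctionField).Point) =
      phi W (phi W P₀) - ((r : ℤ) + 1 - (Nat.card W.Point : ℤ)) • phi W P₀ + (r : ℤ) • P₀ := by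
    rw [AddSubgroup.coe_add, AddSubgroup.coe_sub, AddSubgroup.coe_zsmul, AddSubgroup.coe_zsmul]
    rw [show (1 : ℤ) + (r : ℤ) - (Nat.card W.Point : ℤ) = (r : ℤ) + 1 - (Nat.card W.Point : ℤ) by ring]
  have key' : ((deg W ((e2 - ((1 : ℤ) + (r : ℤ) - (Nat.card W.Point : ℤ)) • e1 + (r : ℤ) • e0 :
      ↥(oddPoints W)) : (W⁄W.FunctionField).Point) : ℕ) : ℤ) = 0 := key
  rw [hcoe] at key'
  exact_mod_cast key'

/-- **The Frobenius relation at the generic point**, from Manin's lemma. -/
theorem generic_relation (hΔ : W.Δ ≠ 0)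
    (hManin : deg W (genericPoint W hΔ - phi W (genericPoint W hΔ)) = Nat.card W.Point) :
    phi W (phi W (genericPoint W hΔ))
      - ((r : ℤ) + 1 - (Nat.card W.Point : ℤ)) • phi W (genericPoint W hΔ)
      + (r : ℤ) • genericPoint W hΔ = 0 := by
  set P₀ := genericPoint W hΔ with hP₀
  set a : ℤ := (r : ℤ) + 1 - (Nat.card W.Point : ℤ) with ha
  have hP₀odd : P₀ ∈ oddPoints W := genericPoint_mem_oddPoints W hΔ
  have h1odd : phi W P₀ ∈ oddPoints W := phi_mem_oddPoints hP₀odd
  have h2odd : phi W (phi W P₀) ∈ oddPoints W := phi_mem_oddPoints h1odd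
  set S := phi W (phi W P₀) - a • phi W P₀ + (r : ℤ) • P₀ with hS
  have hSpsi : S = psi W a (r : ℤ) (frobAlg r W.FunctionField) P₀ := rfl
  have hSodd : S ∈ oddPoints W :=
    add_mem (sub_mem h2odd (zsmul_mem h1odd _)) (zsmul_mem hP₀odd _)
  have hdeg : deg W S = 0 := deg_rel_eq_zero hΔ hManin
  -- the substitutions `P₀ ↦ n P₀`
  have hPL := dInt_PL (W := W) hΔ
  have hmul : ∀ n : ℕ, 0 < n → n • S = S ∨ n • S = -S := by
    intro n hn
    rcases hSc : S with _ | ⟨xS, yS, hxy⟩
    · left; rw [← Point.zero_def, nsmul_zero]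
    · have hnodd : n • P₀ ∈ oddPoints W := nsmul_mem hP₀odd n
      have hdn : deg W (n • P₀) = n ^ 2 := by
        have := d_zsmul hPL (n : ℤ) ⟨P₀, hP₀odd⟩
        have h0 : dInt W ⟨P₀, hP₀odd⟩ = 1 := by
          show ((deg W P₀ : ℕ) : ℤ) = 1
          rw [hP₀, deg_genericPoint hΔ]; rfl
        rw [h0, mul_one] at this
        have h1 : dInt W ((n : ℤ) • (⟨P₀, hP₀odd⟩ : ↥(oddPoints W))) =
            ((deg W (n • P₀) : ℕ) : ℤ) := by
          show ((deg W (((n : ℤ) • (⟨P₀, hP₀odd⟩ : ↥(oddPoints W)) : ↥(oddPoints W)) :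
            (W⁄W.FunctionField).Point) : ℕ) : ℤ) = _
          rw [AddSubgroup.coe_zsmul, natCast_zsmul]
        rw [h1] at this
        exact_mod_cast this
      obtain ⟨A, B, hAB⟩ := exists_isXRatio hΔ hnodd
      have hposAB : 0 < ht A B := by
        rw [← deg_eq_of_isXRatio hAB, hdn]; positivity
      obtain ⟨xn, yn, hn', hneq, hXn⟩ := exists_some_of_ht_pos hAB hposAB
      have hσP₀ : Point.map (W' := W) (substHom W hn'.1 hXn) P₀ = Point.some xn yn hn' :=
        map_substHom_genericPoint W hΔ hn' hXn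
      have hσS : Point.map (W' := W) (substHom W hn'.1 hXn) S = n • S := by
        rw [hSpsi, map_psi W a (r : ℤ) (substHom W hn'.1 hXn) (frobAlg r W.FunctionField)
          (frobAlg r W.FunctionField) (comp_frobAlg _), hσP₀, ← hneq, psi_nsmul]
      obtain ⟨U, V, hUV⟩ := exists_isXRatio hΔ hSodd
      have hUV' : IsXRatio W (Point.some xS yS hxy) U V := hSc ▸ hUV
      have h0 : ht U V = 0 := by rw [← deg_eq_of_isXRatio hUV, hdeg]
      obtain ⟨c, hc⟩ := exists_const_of_deg_eq_zero hxy hUV' h0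
      have := map_eq_or_eq_neg_of_const (substHom W hn'.1 hXn) hxy hc
      rw [← hSc, hσS] at this
      rw [← hSc]
      exact this
  -- `2 S = ± S` and `3 S = ± S` force `S = 0`
  have h2 := hmul 2 (by norm_num)
  have h3 := hmul 3 (by norm_num)
  have e2 : (2 : ℕ) • S = S + S := two_nsmul S
  have e3 : (3 : ℕ) • S = S + S + S := by rw [succ_nsmul, two_nsmul]
  rw [e2] at h2
  rw [e3] at h3
  rcases h2 with h2 | h2
  · -- `S + S = S`
    have : S = 0 := by
      have := congrArg (fun T => T - S) h2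
      simpa using this
    exact this
  · -- `S + S = -S`, i.e. `3 S = 0`
    have h30 : S + S + S = 0 := by rw [h2]; exact neg_add_cancel S
    rcases h3 with h3 | h3
    · rw [h30] at h3; exact h3.symm
    · rw [h30] at h3
      have : S = 0 := by
        have := congrArg (fun T => -T) h3
        simpa using this.symm
      exact this

end Rel

end Fermat.Agent.FrobRelB.Generic
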