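/-
Programme Q (S58), Team B, brick (a) assembly (helper90): **the Frobenius relation on every point of
an elliptic curve over `ZMod r`, from Manin's lemma.**

`frobenius_relation_of_manin` has the conclusion of the squad's target signature (report 129):
for `E : WeierstrassCurve (ZMod r)` with `Δ ≠ 0`, any field `L` over `ZMod r`, any algebra
endomorphism `F` of `L` with `F x = x ^ r` and every `Q ∈ E(L)`:

  `F (F Q) - (r + 1 - #E(𝔽_r)) • F Q + r • Q = 0`.

Its only hypothesis is Manin's lemma `deg (P₀ - φ P₀) = #E(𝔽_r)` for the degree of `Q58R/Deg`.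
-/
import Mathlib
import Fermat.Agent.FrobRelB.Generic

set_option autoImplicit false

namespace Fermat.Agent.FrobRelB.Main

open WeierstrassCurve WeierstrassCurve.Affine
open Fermat.Agent.ES.Q58.IotaDescent23
open Fermat.Agent.Q58R.Deg Fermat.Agent.FrobRel.ManinDefs
open Fermat.Agent.FrobRelB.Generic

/-- **The Frobenius relation from Manin's lemma.** -/
theorem frobenius_relation_of_manin {r : ℕ} [Fact r.Prime] (E : WeierstrassCurve (ZMod r))
    (hΔ : E.Δ ≠ 0) [DecidableEq E.toAffine.FunctionField]
    (hManin : deg E.toAffine (genericPoint E.toAffine hΔ -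
      Point.map (W' := E.toAffine) (frobAlg r E.toAffine.FunctionField)
        (genericPoint E.toAffine hΔ)) = Nat.card E.toAffine.Point)
    {L : Type*} [Field L] [Algebra (ZMod r) L] [DecidableEq L]
    (F : L →ₐ[ZMod r] L) (hF : ∀ x, F x = x ^ r) (Q : (E⁄L).Point) :
    Point.map (W' := E) F (Point.map (W' := E) F Q)
      - ((r : ℤ) + 1 - (Nat.card E.toAffine.Point : ℤ)) • Point.map (W' := E) F Q
      + (r : ℤ) • Q = 0 :=
  Fermat.Agent.FrobRel.Specialize32.frobenius_relation_of_generic E.toAffine hΔ _ _
    (frobAlg r E.toAffine.FunctionField) (fun z => frobAlg_apply _ z)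
    (generic_relation hΔ hManin) F hF Q

end Fermat.Agent.FrobRelB.Main
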