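/-
Programme Q (S58), brick (a), FINAL (helper90, Team B): **the Frobenius relation on an elliptic
curve over `ZMod r`**, unconditionally, with the squad's target signature (report 129):

  `F (F Q) - (r + 1 - #E(𝔽_r)) • F Q + r • Q = 0`

for every `E : WeierstrassCurve (ZMod r)` with `Δ ≠ 0`, every field `L` over `ZMod r`, every algebra
endomorphism `F` of `L` with `F x = x ^ r` and every point `Q ∈ E(L)`.
(`Manin90.manin` + `Main.frobenius_relation_of_manin`.)
-/
import Mathlib
import Fermat.Agent.FrobRelB.Main
import Fermat.Agent.FrobRelB.Manin90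

set_option autoImplicit false

namespace Fermat.Agent.FrobRelB.Final

open WeierstrassCurve WeierstrassCurve.Affine

/-- **The Frobenius relation** (Eichler–Shimura relation for an elliptic curve over `𝔽_r`). -/
theorem frobenius_relation {r : ℕ} [Fact r.Prime] (E : WeierstrassCurve (ZMod r)) (hΔ : E.Δ ≠ 0)
    {L : Type*} [Field L] [Algebra (ZMod r) L] [DecidableEq L]
    (F : L →ₐ[ZMod r] L) (hF : ∀ x, F x = x ^ r) (Q : (E⁄L).Point) :
    Point.map (W' := E) F (Point.map (W' := E) F Q)
      - ((r : ℤ) + 1 - (Nat.card E.toAffine.Point : ℤ)) • Point.map (W' := E) F Q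
      + (r : ℤ) • Q = 0 := by
  classical
  exact Fermat.Agent.FrobRelB.Main.frobenius_relation_of_manin E hΔ
    (Fermat.Agent.FrobRelB.Manin90.manin (W := E.toAffine) hΔ) F hF Q

end Fermat.Agent.FrobRelB.Final
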