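/-
S58 programme, brick (a), TEAM B, sub-brick (F3) (helper34; plan of helper90, report 200).

`r` a prime, `k = ZMod r`, `W` a Weierstrass curve over `k`, `Ω` any field which is a `k`-algebra:
the points of `W(Ω)` fixed by the `r`-power Frobenius are exactly the `k`-rational points, hence
there are `Nat.card W.Point` of them.

This is an adapter on top of helper74's sub-brick (MB) (`Fermat/Agent/FrobRel/ManinMB74.lean`).
-/
import Mathlib
import Fermat.Prelude.Def_FLTPrelim_Modularity
import Fermat.Agent.FrobRel.ManinDefs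
import Fermat.Agent.FrobRel.ManinMB74

set_option autoImplicit false

open WeierstrassCurve WeierstrassCurve.Affine Fermat.Agent.FrobRel.ManinDefs

namespace Fermat.Agent.FrobRelB.FrobFixed34

variable {r : ℕ} [Fact r.Prime]

/-- the `k`-rational points of `W`, as Frobenius-fixed points of `W(Ω)`. -/
noncomputable def toFixed (W : Affine (ZMod r)) (Ω : Type*) [Field Ω] [Algebra (ZMod r) Ω]
    [DecidableEq Ω] (T : (W⁄(ZMod r)).Point) :
    {Q : (W⁄Ω).Point // Point.map (W' := W) (frobAlg r Ω) Q = Q} :=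
  ⟨Point.map (W' := W) (Algebra.ofId (ZMod r) Ω) T,
    Fermat.Agent.FrobRel.ManinMB74.frob_map_ofId W Ω T⟩

theorem toFixed_bijective (W : Affine (ZMod r)) (Ω : Type*) [Field Ω] [Algebra (ZMod r) Ω]
    [DecidableEq Ω] : Function.Bijective (toFixed W Ω) := by
  constructor
  · intro T₁ T₂ h
    have h' : Point.map (W' := W) (Algebra.ofId (ZMod r) Ω) T₁ =
        Point.map (W' := W) (Algebra.ofId (ZMod r) Ω) T₂ := congrArg Subtype.val h
    exact Point.map_injective (W' := W) (f := Algebra.ofId (ZMod r) Ω) h'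
  · rintro ⟨Q, hQ⟩
    obtain ⟨T, hT⟩ := Fermat.Agent.FrobRel.ManinMB74.exists_of_frob_fixed W Ω Q hQ
    exact ⟨T, Subtype.ext hT⟩

/-- **(F3)** the Frobenius-fixed points of `W(Ω)` are in bijection with `W(ZMod r)`. -/
theorem card_frob_fixed (W : Affine (ZMod r)) {Ω : Type*} [Field Ω] [Algebra (ZMod r) Ω]
    [DecidableEq Ω] :
    Nat.card {Q : (W⁄Ω).Point // Point.map (W' := W) (frobAlg r Ω) Q = Q} = Nat.card W.Point := by
  rw [← Fermat.Agent.FrobRel.ManinMB74.card_baseChange_self W]
  exact (Nat.card_congr (Equiv.ofBijective _ (toFixed_bijective W Ω))).symm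

/-- a Frobenius-fixed point of `W(Ω)` comes from a `k`-rational point (re-export of (MB)). -/
theorem exists_rational_of_frob_fixed (W : Affine (ZMod r)) {Ω : Type*} [Field Ω]
    [Algebra (ZMod r) Ω] [DecidableEq Ω] (Q : (W⁄Ω).Point)
    (hQ : Point.map (W' := W) (frobAlg r Ω) Q = Q) :
    ∃ T : (W⁄(ZMod r)).Point, Point.map (W' := W) (Algebra.ofId (ZMod r) Ω) T = Q :=
  Fermat.Agent.FrobRel.ManinMB74.exists_of_frob_fixed W Ω Q hQ

/-- the set of Frobenius-fixed points is finite (since `W(ZMod r)` is). -/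
theorem finite_frob_fixed (W : Affine (ZMod r)) {Ω : Type*} [Field Ω] [Algebra (ZMod r) Ω]
    [DecidableEq Ω] :
    Finite {Q : (W⁄Ω).Point // Point.map (W' := W) (frobAlg r Ω) Q = Q} := by
  have : Finite (W⁄(ZMod r)).Point :=
    WeierstrassCurve.Affine.Point.instFinite (W' := (W⁄(ZMod r)))
  exact Finite.of_surjective _ (toFixed_bijective W Ω).surjective

end Fermat.Agent.FrobRelB.FrobFixed34
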