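/-
Team B (helper33), Manin's lemma by a purely polynomial route, part 3: evaluation of the
denominators of `x(P₀ ± φ P₀)` at the points of the curve above `𝔽_r`.

`k = ZMod r`, `K = W.FunctionField`, `P₀ = (x, y)` the generic point, `φ P₀ = (x ^ r, y ^ r)`.
If `(U, V)` is an `x`-ratio of `P₀ + φ P₀` and `(u, v) ∈ W(Ω)` with `u ^ r = u`, then
`(v - v ^ r) ^ 2 * V(u) = 0`; if `(U, V)` is an `x`-ratio of `P₀ - φ P₀` then
`(v + v ^ r + a₁ u + a₃) ^ 2 * V(u) = 0`.
-/
import Mathlib
import Fermat.Agent.Q58R.Deg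
import Fermat.Agent.FrobRel.ManinDefs

set_option autoImplicit false
set_option linter.unusedSectionVars false

open Polynomial
open scoped Polynomial.Bivariate

namespace Fermat.Agent.FrobRelB.Manin33Eval

open WeierstrassCurve WeierstrassCurve.Affine
open Fermat.Agent.ES.Q58.IotaDescent23 Fermat.Agent.ES.Q58.SubstEmb17
open Fermat.Agent.Q58R.Deg Fermat.Agent.FrobRel.ManinDefs

/-- the `x`-coordinate of a sum of two points with distinct `x`-coordinates, denominators cleared. -/
theorem addX_mul_sq {F : Type*} [Field F] [DecidableEq F] (E : Affine F) {x₁ x₂ : F} (y₁ y₂ : F) (hx : x₁ ≠ x₂) :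
    E.addX x₁ x₂ (E.slope x₁ x₂ y₁ y₂) * (x₁ - x₂) ^ 2 =
      (y₁ - y₂) ^ 2 + E.a₁ * (y₁ - y₂) * (x₁ - x₂) - (E.a₂ + x₁ + x₂) * (x₁ - x₂) ^ 2 := by
  have hd : x₁ - x₂ ≠ 0 := sub_ne_zero.mpr hx
  rw [slope_of_X_ne hx]
  simp only [addX]
  field_simp
  ring

variable {r : ℕ} [Fact r.Prime] (W : Affine (ZMod r)) [DecidableEq W.FunctionField]

/-- `x ^ r ≠ x` in the function field. -/
theorem xK_ne_pow : xK W ≠ xK W ^ r := by
  intro h
  have h1 : 1 < r := (Fact.out : r.Prime).one_lt
  have hP : (X ^ r - X : (ZMod r)[X]) ≠ 0 := FiniteField.X_pow_card_sub_X_ne_zero _ h1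
  apply transcendental_xK W
  refine ⟨X ^ r - X, hP, ?_⟩
  rw [map_sub, map_pow, aeval_X, ← h, sub_self]

/-- the Frobenius image of the generic point. -/
theorem frob_genericPoint (hΔ : W.Δ ≠ 0) :
    ∃ h' : (W⁄W.FunctionField).Nonsingular (xK W ^ r) (yK W ^ r),
      Point.map (W' := W) (frobAlg r W.FunctionField)
        (Fermat.Agent.ES.Q58.IotaDescent23.genericPoint W hΔ) = Point.some _ _ h' :=
  ⟨_, rfl⟩

/-- the numerator of `x(P₀ + φ P₀)`, as an element of the coordinate ring. -/
noncomputable def numAdd : W.CoordinateRing :=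
  (CoordinateRing.mk W Y - CoordinateRing.mk W Y ^ r) ^ 2
    + algebraMap (ZMod r) W.CoordinateRing W.a₁
        * (CoordinateRing.mk W Y - CoordinateRing.mk W Y ^ r)
        * (CoordinateRing.mk W (C X) - CoordinateRing.mk W (C X) ^ r)
    - (algebraMap (ZMod r) W.CoordinateRing W.a₂ + CoordinateRing.mk W (C X)
        + CoordinateRing.mk W (C X) ^ r)
      * (CoordinateRing.mk W (C X) - CoordinateRing.mk W (C X) ^ r) ^ 2

/-- the numerator of `x(P₀ - φ P₀)`, as an element of the coordinate ring. -/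
noncomputable def numSub : W.CoordinateRing :=
  (CoordinateRing.mk W Y + CoordinateRing.mk W Y ^ r
      + algebraMap (ZMod r) W.CoordinateRing W.a₁ * CoordinateRing.mk W (C X) ^ r
      + algebraMap (ZMod r) W.CoordinateRing W.a₃) ^ 2
    + algebraMap (ZMod r) W.CoordinateRing W.a₁
        * (CoordinateRing.mk W Y + CoordinateRing.mk W Y ^ r
          + algebraMap (ZMod r) W.CoordinateRing W.a₁ * CoordinateRing.mk W (C X) ^ r
          + algebraMap (ZMod r) W.CoordinateRing W.a₃)
        * (CoordinateRing.mk W (C X) - CoordinateRing.mk W (C X) ^ r)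
    - (algebraMap (ZMod r) W.CoordinateRing W.a₂ + CoordinateRing.mk W (C X)
        + CoordinateRing.mk W (C X) ^ r)
      * (CoordinateRing.mk W (C X) - CoordinateRing.mk W (C X) ^ r) ^ 2

theorem algebraMap_mk_CX :
    algebraMap W.CoordinateRing W.FunctionField (CoordinateRing.mk W (C X)) = xK W := rfl

theorem algebraMap_mk_Y :
    algebraMap W.CoordinateRing W.FunctionField (CoordinateRing.mk W Y) = yK W := rfl

theorem algebraMap_const (a : ZMod r) :
    algebraMap W.CoordinateRing W.FunctionField (algebraMap (ZMod r) W.CoordinateRing a) =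
      algebraMap (ZMod r) W.FunctionField a :=
  (IsScalarTower.algebraMap_apply (ZMod r) W.CoordinateRing W.FunctionField a).symm

theorem algebraMap_poly (p : (ZMod r)[X]) :
    algebraMap W.CoordinateRing W.FunctionField (algebraMap (ZMod r)[X] W.CoordinateRing p) =
      cK W p :=
  (IsScalarTower.algebraMap_apply (ZMod r)[X] W.CoordinateRing W.FunctionField p).symm

theorem algebraMap_numAdd :
    algebraMap W.CoordinateRing W.FunctionField (numAdd W) =
      (yK W - yK W ^ r) ^ 2
        + (W⁄W.FunctionField).a₁ * (yK W - yK W ^ r) * (xK W - xK W ^ r)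
        - ((W⁄W.FunctionField).a₂ + xK W + xK W ^ r) * (xK W - xK W ^ r) ^ 2 := by
  unfold numAdd
  simp only [map_add, map_sub, map_mul, map_pow, algebraMap_mk_CX, algebraMap_mk_Y,
    algebraMap_const, baseChange_a₁, baseChange_a₂]

theorem algebraMap_numSub :
    algebraMap W.CoordinateRing W.FunctionField (numSub W) =
      (yK W - (W⁄W.FunctionField).negY (xK W ^ r) (yK W ^ r)) ^ 2
        + (W⁄W.FunctionField).a₁ * (yK W - (W⁄W.FunctionField).negY (xK W ^ r) (yK W ^ r))
          * (xK W - xK W ^ r)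
        - ((W⁄W.FunctionField).a₂ + xK W + xK W ^ r) * (xK W - xK W ^ r) ^ 2 := by
  unfold numSub
  simp only [map_add, map_sub, map_mul, map_pow, algebraMap_mk_CX, algebraMap_mk_Y,
    algebraMap_const, baseChange_a₁, baseChange_a₂, baseChange_a₃, negY]
  ring

/-- the `x`-ratio of `P₀ + φ P₀` against the explicit numerator. -/
theorem ratio_add (hΔ : W.Δ ≠ 0) {U V : (ZMod r)[X]}
    (h : IsXRatio W (Fermat.Agent.ES.Q58.IotaDescent23.genericPoint W hΔ +
      Point.map (W' := W) (frobAlg r W.FunctionField)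
        (Fermat.Agent.ES.Q58.IotaDescent23.genericPoint W hΔ)) U V) :
    cK W U * (xK W - xK W ^ r) ^ 2 =
      cK W V * algebraMap W.CoordinateRing W.FunctionField (numAdd W) := by
  obtain ⟨h', e'⟩ := frob_genericPoint W hΔ
  rw [e'] at h
  unfold Fermat.Agent.ES.Q58.IotaDescent23.genericPoint at h
  rw [Point.add_of_X_ne (xK_ne_pow W), isXRatio_some_iff] at h
  obtain ⟨-, e⟩ := h
  rw [algebraMap_numAdd, ← addX_mul_sq (W⁄W.FunctionField) (yK W) (yK W ^ r) (xK_ne_pow W), ← e]
  ring

/-- the `x`-ratio of `P₀ - φ P₀` against the explicit numerator. -/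
theorem ratio_sub (hΔ : W.Δ ≠ 0) {U V : (ZMod r)[X]}
    (h : IsXRatio W (Fermat.Agent.ES.Q58.IotaDescent23.genericPoint W hΔ -
      Point.map (W' := W) (frobAlg r W.FunctionField)
        (Fermat.Agent.ES.Q58.IotaDescent23.genericPoint W hΔ)) U V) :
    cK W U * (xK W - xK W ^ r) ^ 2 =
      cK W V * algebraMap W.CoordinateRing W.FunctionField (numSub W) := by
  obtain ⟨h', e'⟩ := frob_genericPoint W hΔ
  rw [e', sub_eq_add_neg, Point.neg_some] at h
  unfold Fermat.Agent.ES.Q58.IotaDescent23.genericPoint at h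
  rw [Point.add_of_X_ne (xK_ne_pow W), isXRatio_some_iff] at h
  obtain ⟨-, e⟩ := h
  rw [algebraMap_numSub, ← addX_mul_sq (W⁄W.FunctionField) (yK W)
    ((W⁄W.FunctionField).negY (xK W ^ r) (yK W ^ r)) (xK_ne_pow W), ← e]
  ring

section Eval

variable {Ω : Type*} [Field Ω] [Algebra (ZMod r) Ω]

theorem evalHom_numAdd {u v : Ω} (h : (W⁄Ω).Equation u v) (hu : u ^ r = u) :
    evalHom W h (numAdd W) = (v - v ^ r) ^ 2 := by
  unfold numAdd
  simp only [map_add, map_sub, map_mul, map_pow, evalHom_x, evalHom_y, AlgHom.commutes, hu,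
    sub_self]
  ring

theorem evalHom_numSub {u v : Ω} (h : (W⁄Ω).Equation u v) (hu : u ^ r = u) :
    evalHom W h (numSub W) =
      (v + v ^ r + algebraMap (ZMod r) Ω W.a₁ * u + algebraMap (ZMod r) Ω W.a₃) ^ 2 := by
  unfold numSub
  simp only [map_add, map_sub, map_mul, map_pow, evalHom_x, evalHom_y, AlgHom.commutes, hu,
    sub_self]
  ring

/-- evaluation of a relation `c U * (x - x ^ r) ^ 2 = c V * N` at a point above `𝔽_r`. -/
theorem eval_of_ratio {U V : (ZMod r)[X]} {N : W.CoordinateRing}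
    (hrel : cK W U * (xK W - xK W ^ r) ^ 2 =
      cK W V * algebraMap W.CoordinateRing W.FunctionField N)
    {u v : Ω} (h : (W⁄Ω).Equation u v) (hu : u ^ r = u) :
    aeval u V * evalHom W h N = 0 := by
  have hCR : CoordinateRing.mk W (C U)
      * (CoordinateRing.mk W (C X) - CoordinateRing.mk W (C X) ^ r) ^ 2
        = CoordinateRing.mk W (C V) * N := by
    apply IsFractionRing.injective W.CoordinateRing W.FunctionField
    have e1 : ∀ p : (ZMod r)[X],
        algebraMap W.CoordinateRing W.FunctionField (CoordinateRing.mk W (C p)) = cK W p :=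
      fun p => algebraMap_poly W p
    rw [map_mul, map_mul, map_pow, map_sub, map_pow, e1 U, e1 V, algebraMap_mk_CX]
    exact hrel
  have := congrArg (evalHom W h) hCR
  rw [map_mul, map_mul, map_pow, map_sub, map_pow, evalHom_x, evalHom_C, evalHom_C, hu, sub_self,
    zero_pow two_ne_zero, mul_zero] at this
  exact this.symm

theorem eval_add (hΔ : W.Δ ≠ 0) {U V : (ZMod r)[X]}
    (hr : IsXRatio W (Fermat.Agent.ES.Q58.IotaDescent23.genericPoint W hΔ +
      Point.map (W' := W) (frobAlg r W.FunctionField)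
        (Fermat.Agent.ES.Q58.IotaDescent23.genericPoint W hΔ)) U V)
    {u v : Ω} (h : (W⁄Ω).Equation u v) (hu : u ^ r = u) :
    aeval u V * (v - v ^ r) ^ 2 = 0 := by
  rw [← evalHom_numAdd W h hu]
  exact eval_of_ratio W (ratio_add W hΔ hr) h hu

theorem eval_sub (hΔ : W.Δ ≠ 0) {U V : (ZMod r)[X]}
    (hr : IsXRatio W (Fermat.Agent.ES.Q58.IotaDescent23.genericPoint W hΔ -
      Point.map (W' := W) (frobAlg r W.FunctionField)
        (Fermat.Agent.ES.Q58.IotaDescent23.genericPoint W hΔ)) U V)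
    {u v : Ω} (h : (W⁄Ω).Equation u v) (hu : u ^ r = u) :
    aeval u V *
      (v + v ^ r + algebraMap (ZMod r) Ω W.a₁ * u + algebraMap (ZMod r) Ω W.a₃) ^ 2 = 0 := by
  rw [← evalHom_numSub W h hu]
  exact eval_of_ratio W (ratio_sub W hΔ hr) h hu

end Eval

end Fermat.Agent.FrobRelB.Manin33Eval
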