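/-
Team B (helper33), Manin's lemma by a purely polynomial route, part 4: the biquadratic forms at the
pair `(P₀, φ P₀)`.

* `forms_eq` : for `x`-ratios of `R, S, R + S, R - S` the forms `(G0, G1, G2)(R, S)` are a CONSTANT
  multiple of the symmetric functions `(V₃ V₄, U₃ V₄ + U₄ V₃, U₃ U₄)` (the refinement of
  `Q58R.Deg.ht_parallelogram` used here);
* the explicit forms at `(X, 1)`, `(X ^ r, 1)`: degrees and values on `𝔽_r`.
-/
import Mathlib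
import Fermat.Agent.Q58R.Deg

set_option autoImplicit false
set_option linter.unusedSectionVars false

open Polynomial

namespace Fermat.Agent.FrobRelB.Manin33Forms

open WeierstrassCurve WeierstrassCurve.Affine
open Fermat.Agent.ES.Q58.IotaDescent23 Fermat.Agent.ES.Q58.SubstEmb17
open Fermat.Agent.ES.Q58.PLForms2 Fermat.Agent.ES.Q58.PLPoly2 Fermat.Agent.ES.Q58.PLCurve2
open Fermat.Agent.Q58R.Deg

section General

variable {k : Type*} [Field k] {W : Affine k} [DecidableEq W.FunctionField]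

/-- **the forms at `(R, S)` are a constant multiple of the symmetric functions of `R ± S`.** -/
theorem forms_eq (hΔ : W.Δ ≠ 0) {R S : (W⁄W.FunctionField).Point}
    {U₁ V₁ U₂ V₂ U₃ V₃ U₄ V₄ : k[X]} (h₁ : IsXRatio W R U₁ V₁) (h₂ : IsXRatio W S U₂ V₂)
    (h₃ : IsXRatio W (R + S) U₃ V₃) (h₄ : IsXRatio W (R - S) U₄ V₄) :
    ∃ c : k, c ≠ 0 ∧ G0 U₁ V₁ U₂ V₂ = C c * (V₃ * V₄) ∧
      G1 (Wt W) U₁ V₁ U₂ V₂ = C c * (U₃ * V₄ + U₄ * V₃) ∧
      G2 (Wt W) U₁ V₁ U₂ V₂ = C c * (U₃ * U₄) := by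
  obtain ⟨t₁, ht₁, e₁0, e₁1⟩ := h₁.exists_scale
  obtain ⟨t₂, ht₂, e₂0, e₂1⟩ := h₂.exists_scale
  obtain ⟨t₃, ht₃, e₃0, e₃1⟩ := h₃.exists_scale
  obtain ⟨t₄, ht₄, e₄0, e₄1⟩ := h₄.exists_scale
  obtain ⟨c, hc, r0, r1, r2⟩ := addsub_rel R S
  simp only [e₁0, e₁1, e₂0, e₂1, e₃0, e₃1, e₄0, e₄1] at r0 r1 r2
  rw [G0_scale] at r0
  rw [G1_scale] at r1
  rw [G2_scale] at r2
  have m0 : cK W (G0 U₁ V₁ U₂ V₂) = G0 (cK W U₁) (cK W V₁) (cK W U₂) (cK W V₂) := map_G0 _ _ _ _ _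
  have m1 : cK W (G1 (Wt W) U₁ V₁ U₂ V₂) =
      G1 (W⁄W.FunctionField) (cK W U₁) (cK W V₁) (cK W U₂) (cK W V₂) := by
    rw [map_G1, map_Wt_eq]
  have m2 : cK W (G2 (Wt W) U₁ V₁ U₂ V₂) =
      G2 (W⁄W.FunctionField) (cK W U₁) (cK W V₁) (cK W U₂) (cK W V₂) := by
    rw [map_G2, map_Wt_eq]
  rw [← m0] at r0
  rw [← m1] at r1
  rw [← m2] at r2
  set a : W.FunctionField := t₁ ^ 2 * t₂ ^ 2 with ha
  have ha0 : a ≠ 0 := mul_ne_zero (pow_ne_zero _ ht₁) (pow_ne_zero _ ht₂)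
  set μ : W.FunctionField := c * t₃ * t₄ / a with hμ
  have hμ0 : μ ≠ 0 := div_ne_zero (mul_ne_zero (mul_ne_zero hc ht₃) ht₄) ha0
  have q0 : cK W (G0 U₁ V₁ U₂ V₂) = μ * cK W (V₃ * V₄) := by
    rw [hμ, map_mul]; field_simp; linear_combination r0
  have q1 : cK W (G1 (Wt W) U₁ V₁ U₂ V₂) = μ * cK W (U₃ * V₄ + U₄ * V₃) := by
    rw [hμ, map_add, map_mul, map_mul]; field_simp; linear_combination r1
  have q2 : cK W (G2 (Wt W) U₁ V₁ U₂ V₂) = μ * cK W (U₃ * U₄) := by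
    rw [hμ, map_mul]; field_simp; linear_combination r2
  obtain ⟨b0, b1, b2, hb⟩ := (prim3_sym h₃.1 h₄.1).exists_bezout
  set g : k[X] := b0 * G0 U₁ V₁ U₂ V₂ + b1 * G1 (Wt W) U₁ V₁ U₂ V₂ + b2 * G2 (Wt W) U₁ V₁ U₂ V₂
    with hg
  have hgμ : cK W g = μ := by
    rw [hg, map_add, map_add, map_mul, map_mul, map_mul, q0, q1, q2]
    have hb' : cK W b0 * cK W (V₃ * V₄) + cK W b1 * cK W (U₃ * V₄ + U₄ * V₃)
        + cK W b2 * cK W (U₃ * U₄) = 1 := by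
      rw [← map_mul, ← map_mul, ← map_mul, ← map_add, ← map_add, hb, map_one]
    linear_combination μ * hb'
  have hg0 : g ≠ 0 := by
    intro h0
    rw [h0, map_zero] at hgμ
    exact hμ0 hgμ.symm
  have p0 : G0 U₁ V₁ U₂ V₂ = g * (V₃ * V₄) := by
    apply cK_injective W
    rw [map_mul, hgμ, q0]
  have p1 : G1 (Wt W) U₁ V₁ U₂ V₂ = g * (U₃ * V₄ + U₄ * V₃) := by
    apply cK_injective W
    rw [map_mul, hgμ, q1]
  have p2 : G2 (Wt W) U₁ V₁ U₂ V₂ = g * (U₃ * U₄) := by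
    apply cK_injective W
    rw [map_mul, hgμ, q2]
  -- `g` is a unit since the forms are primitive
  have hunit : IsUnit g := by
    by_contra hnu
    obtain ⟨π, hπ, hπg⟩ := WfDvdMonoid.exists_irreducible_factor hnu hg0
    exact prim3_forms W hΔ h₁.1 h₂.1 π hπ.prime (hπg.trans ⟨_, p0⟩) (hπg.trans ⟨_, p1⟩)
      (hπg.trans ⟨_, p2⟩)
  obtain ⟨c', hc', hcg⟩ := Polynomial.isUnit_iff.mp hunit
  refine ⟨c', hc'.ne_zero, ?_, ?_, ?_⟩
  · rw [hcg]; exact p0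
  · rw [hcg]; exact p1
  · rw [hcg]; exact p2

end General

section Explicit

variable {k : Type*} [Field k] (W : Affine k)

theorem G0_explicit (q : ℕ) : G0 (X : k[X]) 1 (X ^ q) 1 = (X ^ q - X) ^ 2 := by
  simp only [G0]
  ring

theorem natDegree_G1_le (q : ℕ) (hq : 2 ≤ q) :
    (G1 (Wt W) X 1 (X ^ q) 1).natDegree ≤ 2 * q + 1 := by
  have b2 : (Wt W).b₂ = C W.b₂ := by simp [Wt]
  have b4 : (Wt W).b₄ = C W.b₄ := by simp [Wt]
  have b6 : (Wt W).b₆ = C W.b₆ := by simp [Wt]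
  simp only [G1, b2, b4, b6]
  compute_degree
  all_goals omega

theorem natDegree_G2 (q : ℕ) (hq : 2 ≤ q) :
    (G2 (Wt W) X 1 (X ^ q) 1).natDegree = 2 * q + 2 := by
  have b4 : (Wt W).b₄ = C W.b₄ := by simp [Wt]
  have b6 : (Wt W).b₆ = C W.b₆ := by simp [Wt]
  have b8 : (Wt W).b₈ = C W.b₈ := by simp [Wt]
  simp only [G2, b4, b6, b8]
  compute_degree!
  · rw [if_pos (by omega), if_neg (by omega), if_neg (by omega)]
    simp
  all_goals omega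

theorem eval_G1 (q : ℕ) (α : k) (hα : α ^ q = α) :
    eval α (G1 (Wt W) X 1 (X ^ q) 1) = fh W α 1 := by
  have b2 : (Wt W).b₂ = C W.b₂ := by simp [Wt]
  have b4 : (Wt W).b₄ = C W.b₄ := by simp [Wt]
  have b6 : (Wt W).b₆ = C W.b₆ := by simp [Wt]
  rw [← G1_diag]
  simp only [G1, b2, b4, b6, eval_add, eval_mul, eval_pow, eval_X, eval_C, eval_one, eval_ofNat,
    hα]

theorem eval_G2 (q : ℕ) (α : k) (hα : α ^ q = α) :
    eval α (G2 (Wt W) X 1 (X ^ q) 1) = gh W α 1 := by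
  have b4 : (Wt W).b₄ = C W.b₄ := by simp [Wt]
  have b6 : (Wt W).b₆ = C W.b₆ := by simp [Wt]
  have b8 : (Wt W).b₈ = C W.b₈ := by simp [Wt]
  rw [← G2_diag]
  simp only [G2, b4, b6, b8, eval_add, eval_sub, eval_mul, eval_pow, eval_X, eval_C, eval_one,
    hα]

end Explicit

end Fermat.Agent.FrobRelB.Manin33Forms
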