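/-
Team B (helper33), Manin's lemma by a purely polynomial route, part 2: the point count of a
Weierstrass curve with `Δ ≠ 0` over a finite field, fibred over the `x`-line:
`#W(F) = 1 + ∑ α, #{β | W.Equation α β}`.  Mathlib only.
-/
import Mathlib

set_option autoImplicit false

namespace Fermat.Agent.FrobRelB.Manin33Count

open WeierstrassCurve WeierstrassCurve.Affine

variable {F : Type*} [Field F] [Fintype F]

open Classical in
/-- the number of points of `W` above `α`. -/
noncomputable def fibreCard (W : Affine F) (α : F) : ℕ :=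
  (Finset.univ.filter fun β : F => W.Equation α β).card

open Classical in
theorem card_point_eq (W : Affine F) (hΔ : W.Δ ≠ 0) :
    Nat.card W.Point = 1 + ∑ α : F, fibreCard W α := by
  have e0 : W.Point ≃ Option {xy : F × F // W.Nonsingular xy.1 xy.2} := W.nonsingularPointEquiv
  rw [Nat.card_congr e0]
  have e : {xy : F × F // W.Nonsingular xy.1 xy.2} ≃ Σ α : F, {β : F // W.Equation α β} :=
    { toFun := fun p => ⟨p.1.1, p.1.2, p.2.1⟩
      invFun := fun s => ⟨(s.1, s.2.1), (W.equation_iff_nonsingular_of_Δ_ne_zero hΔ).mp s.2.2⟩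
      left_inv := fun p => by rcases p with ⟨⟨a, b⟩, h⟩; rfl
      right_inv := fun s => by rcases s with ⟨a, b, h⟩; rfl }
  rw [Nat.card_eq_fintype_card]
  rw [Fintype.card_option, Fintype.card_congr e, Fintype.card_sigma, add_comm]
  congr 1
  refine Finset.sum_congr rfl fun α _ => ?_
  unfold fibreCard
  rw [Fintype.card_subtype]

end Fermat.Agent.FrobRelB.Manin33Count
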