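/-
Team B (helper33), Manin's lemma by a purely polynomial route, part 5: the local analysis above a
point `α ∈ 𝔽_r` of the `x`-line, according to the number `fibreCard W α ∈ {0, 1, 2}` of rational
points above `α`.
-/
import Mathlib
import Fermat.Agent.ES.Q58.PLForms2
import Fermat.Agent.FrobRel.ManinMB74
import Fermat.Agent.FrobRelB.Manin33Count

set_option autoImplicit false
set_option linter.unusedSectionVars false

open Polynomial

namespace Fermat.Agent.FrobRelB.Manin33Local

open WeierstrassCurve WeierstrassCurve.Affine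
open Fermat.Agent.ES.Q58.PLForms2
open Fermat.Agent.FrobRel.ManinDefs Fermat.Agent.FrobRel.ManinMB74
open Fermat.Agent.FrobRelB.Manin33Count

/-- the discriminant of the Weierstrass equation in `y` is the square of `2 y + a₁ x + a₃`. -/
theorem fh_eq_sq {F : Type*} [CommRing F] (E : Affine F) {α β : F} (h : E.Equation α β) :
    fh E α 1 = (2 * β + E.a₁ * α + E.a₃) ^ 2 := by
  rw [equation_iff] at h
  simp only [fh, b₂, b₄, b₆]
  linear_combination (-4 : F) * h

section Finite

variable {F : Type*} [Field F] [Fintype F] (W : Affine F)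

open Classical in
theorem mem_fibre_iff (α β : F) :
    β ∈ (Finset.univ.filter fun β : F => W.Equation α β) ↔ W.Equation α β := by
  simp

open Classical in
theorem fibreCard_le_two (α : F) : fibreCard W α ≤ 2 := by
  unfold fibreCard
  by_contra hlt
  rw [not_le, Finset.two_lt_card] at hlt
  obtain ⟨a, ha, b, hb, c, hc, hab, hac, hbc⟩ := hlt
  rw [mem_fibre_iff] at ha hb hc
  have h1 := (Y_eq_of_X_eq hb ha rfl).resolve_left (Ne.symm hab)
  have h2 := (Y_eq_of_X_eq hc ha rfl).resolve_left (Ne.symm hac)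
  exact hbc (h1.trans h2.symm)

open Classical in
theorem of_fibreCard_two (α : F) (h : fibreCard W α = 2) :
    ∃ β, W.Equation α β ∧ 2 * β + W.a₁ * α + W.a₃ ≠ 0 := by
  unfold fibreCard at h
  obtain ⟨a, b, hab, hs⟩ := Finset.card_eq_two.mp h
  have ha : W.Equation α a := by
    rw [← mem_fibre_iff, hs]; simp
  have hb : W.Equation α b := by
    rw [← mem_fibre_iff, hs]; simp
  refine ⟨a, ha, ?_⟩
  have h1 := (Y_eq_of_X_eq hb ha rfl).resolve_left (Ne.symm hab)
  intro h0
  apply hab
  rw [h1, negY]
  linear_combination h0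

open Classical in
theorem of_fibreCard_one (hΔ : W.Δ ≠ 0) (α : F) (h : fibreCard W α = 1) :
    fh W α 1 = 0 ∧ gh W α 1 ≠ 0 := by
  unfold fibreCard at h
  obtain ⟨a, hs⟩ := Finset.card_eq_one.mp h
  have ha : W.Equation α a := by
    rw [← mem_fibre_iff, hs]; simp
  have hneg : W.Equation α (W.negY α a) := (equation_neg α a).mpr ha
  have hmem : W.negY α a ∈ ({a} : Finset F) := by
    rw [← hs, mem_fibre_iff]; exact hneg
  rw [Finset.mem_singleton] at hmem
  have hf : fh W α 1 = 0 := by
    rw [fh_eq_sq W ha]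
    have : 2 * a + W.a₁ * α + W.a₃ = 0 := by
      rw [negY] at hmem
      linear_combination -hmem
    rw [this]
    ring
  exact ⟨hf, fun hg => dup_no_common_zero W hΔ (Or.inr one_ne_zero) hf hg⟩

end Finite

section ZModr

variable {r : ℕ} [Fact r.Prime] (W : Affine (ZMod r))

/-- the Frobenius conjugate of a point above `𝔽_r` lies on the curve. -/
theorem equation_pow {Ω : Type*} [Field Ω] [Algebra (ZMod r) Ω] {u v : Ω}
    (h : (W⁄Ω).Equation u v) (hu : u ^ r = u) : (W⁄Ω).Equation u (v ^ r) := by
  have := Equation.baseChange (frobAlg r Ω) h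
  rwa [frobAlg_apply, frobAlg_apply, hu] at this

open Classical in
/-- no rational point above `α`: every point above `α` in an extension is moved by Frobenius. -/
theorem pow_ne_of_fibreCard_zero (α : ZMod r) (h0 : fibreCard W α = 0)
    {Ω : Type*} [Field Ω] [Algebra (ZMod r) Ω] {v : Ω}
    (h : (W⁄Ω).Equation (algebraMap (ZMod r) Ω α) v) : v ^ r ≠ v := by
  intro hv
  obtain ⟨β, rfl⟩ := mem_range_algebraMap_of_pow_eq hv
  have hβ : W.Equation α β :=
    (W.map_equation (FaithfulSMul.algebraMap_injective (ZMod r) Ω) α β).mp h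
  unfold fibreCard at h0
  rw [Finset.card_eq_zero] at h0
  have : β ∈ (Finset.univ.filter fun β : ZMod r => W.Equation α β) := by
    rw [Manin33Local.mem_fibre_iff]; exact hβ
  rw [h0] at this
  exact absurd this (Finset.notMem_empty _)

theorem algebraMap_pow_self {Ω : Type*} [Field Ω] [Algebra (ZMod r) Ω] (α : ZMod r) :
    algebraMap (ZMod r) Ω α ^ r = algebraMap (ZMod r) Ω α := by
  rw [← map_pow, ZMod.pow_card]

/-- there is a point above every `α` over an algebraically closed field. -/
theorem exists_equation_of_isAlgClosed (Ω : Type*) [Field Ω] [Algebra (ZMod r) Ω] [IsAlgClosed Ω]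
    (u : Ω) : ∃ v : Ω, (W⁄Ω).Equation u v := by
  let quadP : Polynomial Ω := X ^ 2 + C ((W⁄Ω).a₁ * u + (W⁄Ω).a₃) * X
    - C (u ^ 3 + (W⁄Ω).a₂ * u ^ 2 + (W⁄Ω).a₄ * u + (W⁄Ω).a₆)
  have hnat : quadP.natDegree = 2 := by
    simp only [quadP]
    compute_degree!
  have hdeg : quadP.degree ≠ 0 := by
    intro h
    have h2 := natDegree_eq_of_degree_eq_some (n := 0) h
    omega
  obtain ⟨v, hv⟩ := IsAlgClosed.exists_root quadP hdeg
  refine ⟨v, ?_⟩
  rw [equation_iff]
  simp only [quadP, IsRoot.def, eval_sub, eval_add, eval_pow, eval_mul, eval_X, eval_C] at hv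
  linear_combination hv

theorem map_fh {Ω : Type*} [Field Ω] [Algebra (ZMod r) Ω] (α : ZMod r) :
    fh (W⁄Ω) (algebraMap (ZMod r) Ω α) 1 = algebraMap (ZMod r) Ω (fh W α 1) := by
  simp only [fh, WeierstrassCurve.baseChange, WeierstrassCurve.map_b₂, WeierstrassCurve.map_b₄,
    WeierstrassCurve.map_b₆, map_add, map_mul, map_pow, map_one, map_ofNat]

/-- no rational point above `α`: the discriminant of the fibre does not vanish. -/
theorem fh_ne_zero_of_fibreCard_zero (α : ZMod r) (h0 : fibreCard W α = 0) : fh W α 1 ≠ 0 := by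
  intro hf
  obtain ⟨v, hv⟩ := exists_equation_of_isAlgClosed W (AlgebraicClosure (ZMod r))
    (algebraMap (ZMod r) (AlgebraicClosure (ZMod r)) α)
  have hu := algebraMap_pow_self (Ω := AlgebraicClosure (ZMod r)) α
  have hne := pow_ne_of_fibreCard_zero W α h0 hv
  have hpow := equation_pow W hv hu
  have hneg := (Y_eq_of_X_eq hpow hv rfl).resolve_left hne
  have hsq := fh_eq_sq (W⁄(AlgebraicClosure (ZMod r))) hv
  rw [map_fh, hf, map_zero] at hsq
  have hlin := (pow_eq_zero_iff two_ne_zero).mp hsq.symm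
  apply hne
  rw [hneg, negY]
  linear_combination -hlin

end ZModr

end Fermat.Agent.FrobRelB.Manin33Local
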