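/-
Team B (helper33), Manin's lemma by a purely polynomial route, part 1: the abstract counting lemma.

`F` a finite field with `q` elements, `D = X ^ q - X = ∏ (X - α)`.  Given two pairs `(U₃, V₃)`,
`(U₄, V₄)` of polynomials with
  `D ^ 2 = c V₃ V₄`, `G₁ = c (U₃ V₄ + U₄ V₃)`, `G₂ = c U₃ U₄`, `deg G₁ ≤ 2 q + 1`, `deg G₂ = 2 q + 2`
and local information at every `α ∈ F` described by a function `n : F → {0, 1, 2}`, the height
`max (deg U₄) (deg V₄)` equals `1 + ∑ α, n α`.  Mathlib only.
-/
import Mathlib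

set_option autoImplicit false

namespace Fermat.Agent.FrobRelB.Manin33Poly

open Polynomial

variable {F : Type*} [Field F]

/-- the sum of the root multiplicities over a finite field is at most the degree. -/
theorem sum_rootMultiplicity_le [Fintype F] (P : F[X]) :
    ∑ α : F, P.rootMultiplicity α ≤ P.natDegree := by
  classical
  have h1 : ∑ α : F, P.rootMultiplicity α = ∑ α ∈ P.roots.toFinset, P.roots.count α := by
    have h2 : ∑ α ∈ P.roots.toFinset, P.roots.count α = ∑ α : F, P.roots.count α := by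
      apply Finset.sum_subset (Finset.subset_univ _)
      intro α _ hα
      rw [Multiset.mem_toFinset] at hα
      exact Multiset.count_eq_zero_of_notMem hα
    rw [h2]
    exact Finset.sum_congr rfl fun α _ => (count_roots P).symm
  rw [h1, Multiset.toFinset_sum_count_eq]
  exact card_roots' P

/-- every element of a finite field is a simple root of `X ^ q - X`. -/
theorem rootMultiplicity_X_pow_card_sub_X [Fintype F] (α : F) :
    (X ^ Fintype.card F - X : F[X]).rootMultiplicity α = 1 := by
  classical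
  rw [← count_roots, FiniteField.roots_X_pow_card_sub_X]
  exact Multiset.count_eq_one_of_mem Finset.univ.nodup (Finset.mem_univ α)

theorem eval_X_pow_card_sub_X [Fintype F] (α : F) :
    eval α (X ^ Fintype.card F - X : F[X]) = 0 := by
  simp [FiniteField.pow_card]

/-- degree bookkeeping: if `a₃ + a₄ = 2 q + 2`, `b₃ + b₄ = 2 q` and the two cross sums are not both
`≤ 2 q + 1` unless equal, then `a₄ = b₄ + 1`. -/
theorem natDegree_cross {U₃ V₃ U₄ V₄ : F[X]} {q : ℕ} (hU₃ : U₃ ≠ 0) (hV₃ : V₃ ≠ 0) (hU₄ : U₄ ≠ 0)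
    (hV₄ : V₄ ≠ 0) (hU : U₃.natDegree + U₄.natDegree = 2 * q + 2)
    (hV : V₃.natDegree + V₄.natDegree = 2 * q)
    (hS : (U₃ * V₄ + U₄ * V₃).natDegree ≤ 2 * q + 1) :
    U₄.natDegree = V₄.natDegree + 1 := by
  by_contra hne
  have e1 : (U₃ * V₄).natDegree = U₃.natDegree + V₄.natDegree := natDegree_mul hU₃ hV₄
  have e2 : (U₄ * V₃).natDegree = U₄.natDegree + V₃.natDegree := natDegree_mul hU₄ hV₃
  rcases lt_trichotomy (U₃ * V₄).natDegree (U₄ * V₃).natDegree with h | h | h
  · rw [natDegree_add_eq_right_of_natDegree_lt h] at hS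
    omega
  · omega
  · rw [natDegree_add_eq_left_of_natDegree_lt h] at hS
    omega

/-- **the abstract counting lemma.** -/
theorem ht_eq_of_local [Fintype F] {U₃ V₃ U₄ V₄ G₁ G₂ : F[X]} {c : F} (hc : c ≠ 0)
    (h0 : (X ^ Fintype.card F - X : F[X]) ^ 2 = C c * (V₃ * V₄))
    (h1 : G₁ = C c * (U₃ * V₄ + U₄ * V₃))
    (h2 : G₂ = C c * (U₃ * U₄))
    (hG1 : G₁.natDegree ≤ 2 * Fintype.card F + 1)
    (hG2 : G₂.natDegree = 2 * Fintype.card F + 2)
    (n : F → ℕ)
    (hn2 : ∀ α, n α = 2 → eval α V₄ = 0 ∧ eval α G₁ ≠ 0)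
    (hn0 : ∀ α, n α = 0 → eval α V₃ = 0 ∧ eval α G₁ ≠ 0)
    (hn1 : ∀ α, n α = 1 → eval α G₁ = 0 ∧ eval α G₂ ≠ 0)
    (hle : ∀ α, n α ≤ 2) :
    max U₄.natDegree V₄.natDegree = 1 + ∑ α, n α := by
  classical
  set q := Fintype.card F with hq
  have hq1 : 1 < q := Fintype.one_lt_card
  have hD0 : (X ^ q - X : F[X]) ≠ 0 := FiniteField.X_pow_card_sub_X_ne_zero F hq1
  have hD2 : (X ^ q - X : F[X]) ^ 2 ≠ 0 := pow_ne_zero _ hD0
  have hCc : (C c : F[X]) ≠ 0 := by rwa [Ne, C_eq_zero]
  have hVV : V₃ * V₄ ≠ 0 := by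
    intro h
    rw [h, mul_zero] at h0
    exact hD2 h0
  have hV₃ : V₃ ≠ 0 := left_ne_zero_of_mul hVV
  have hV₄ : V₄ ≠ 0 := right_ne_zero_of_mul hVV
  have hG2ne : G₂ ≠ 0 := by
    intro h
    rw [h, natDegree_zero] at hG2
    omega
  have hUU : U₃ * U₄ ≠ 0 := by
    intro h
    rw [h, mul_zero] at h2
    exact hG2ne h2
  have hU₃ : U₃ ≠ 0 := left_ne_zero_of_mul hUU
  have hU₄ : U₄ ≠ 0 := right_ne_zero_of_mul hUU
  -- local multiplicities
  have hsum : ∀ α : F, V₃.rootMultiplicity α + V₄.rootMultiplicity α = 2 := by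
    intro α
    have e1 : ((X ^ q - X : F[X]) ^ 2).rootMultiplicity α = 2 := by
      rw [pow_two, rootMultiplicity_mul (by rw [← pow_two]; exact hD2),
        rootMultiplicity_X_pow_card_sub_X]
    rw [h0, rootMultiplicity_mul (mul_ne_zero hCc hVV), rootMultiplicity_C, zero_add,
      rootMultiplicity_mul hVV] at e1
    exact e1
  have hev0 : ∀ α : F, eval α V₃ * eval α V₄ = 0 := by
    intro α
    have := congrArg (eval α) h0
    rw [eval_pow, eval_X_pow_card_sub_X, eval_mul, eval_C, eval_mul] at this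
    have h3 : c * (eval α V₃ * eval α V₄) = 0 := by rw [← this]; ring
    exact (mul_eq_zero.mp h3).resolve_left hc
  have hev1 : ∀ α : F, eval α G₁ = c * (eval α U₃ * eval α V₄ + eval α U₄ * eval α V₃) := by
    intro α
    rw [h1]
    simp only [eval_mul, eval_C, eval_add]
  have hev2 : ∀ α : F, eval α G₂ = c * (eval α U₃ * eval α U₄) := by
    intro α
    rw [h2]
    simp only [eval_mul, eval_C]
  have hpos : ∀ (P : F[X]) (_ : P ≠ 0) (α : F), eval α P = 0 → 1 ≤ P.rootMultiplicity α := by
    intro P hP α h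
    exact (rootMultiplicity_pos hP).mpr h
  have hzero : ∀ (P : F[X]) (α : F), eval α P ≠ 0 → P.rootMultiplicity α = 0 := by
    intro P α h
    exact rootMultiplicity_eq_zero h
  have hmult : ∀ α : F, V₄.rootMultiplicity α = n α := by
    intro α
    have hs := hsum α
    have hl := hle α
    rcases Nat.lt_or_ge (n α) 1 with hlt | hge
    · -- n α = 0
      have hn : n α = 0 := by omega
      obtain ⟨hv3, hg1⟩ := hn0 α hn
      have hv4 : eval α V₄ ≠ 0 := by
        intro hv4
        apply hg1
        rw [hev1, hv3, hv4]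
        ring
      rw [hzero V₄ α hv4, hn]
    · rcases Nat.lt_or_ge (n α) 2 with hlt2 | hge2
      · -- n α = 1
        have hn : n α = 1 := by omega
        obtain ⟨hg1, hg2⟩ := hn1 α hn
        rw [hev2] at hg2
        have hu3 : eval α U₃ ≠ 0 := by
          intro h
          apply hg2
          rw [h]
          ring
        have hu4 : eval α U₄ ≠ 0 := by
          intro h
          apply hg2
          rw [h]
          ring
        rw [hev1] at hg1
        have hcross : eval α U₃ * eval α V₄ + eval α U₄ * eval α V₃ = 0 :=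
          (mul_eq_zero.mp hg1).resolve_left hc
        have hboth : eval α V₃ = 0 ∧ eval α V₄ = 0 := by
          rcases mul_eq_zero.mp (hev0 α) with h | h
          · refine ⟨h, ?_⟩
            rw [h, mul_zero, add_zero] at hcross
            exact (mul_eq_zero.mp hcross).resolve_left hu3
          · refine ⟨?_, h⟩
            rw [h, mul_zero, zero_add] at hcross
            exact (mul_eq_zero.mp hcross).resolve_left hu4
        have p3 := hpos V₃ hV₃ α hboth.1
        have p4 := hpos V₄ hV₄ α hboth.2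
        omega
      · -- n α = 2
        have hn : n α = 2 := by omega
        obtain ⟨hv4, hg1⟩ := hn2 α hn
        have hv3 : eval α V₃ ≠ 0 := by
          intro hv3
          apply hg1
          rw [hev1, hv3, hv4]
          ring
        have := hzero V₃ α hv3
        omega
  -- degrees of the denominators
  have hVdeg : V₃.natDegree + V₄.natDegree = 2 * q := by
    have := congrArg natDegree h0
    rw [natDegree_pow, FiniteField.X_pow_card_sub_X_natDegree_eq F hq1, natDegree_C_mul hc,
      natDegree_mul hV₃ hV₄] at this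
    omega
  have hUdeg : U₃.natDegree + U₄.natDegree = 2 * q + 2 := by
    have := congrArg natDegree h2
    rw [natDegree_C_mul hc, natDegree_mul hU₃ hU₄, hG2] at this
    omega
  have hSdeg : (U₃ * V₄ + U₄ * V₃).natDegree ≤ 2 * q + 1 := by
    have := congrArg natDegree h1
    rw [natDegree_C_mul hc] at this
    rw [← this]
    exact hG1
  have hcross := natDegree_cross hU₃ hV₃ hU₄ hV₄ hUdeg hVdeg hSdeg
  have hle3 := sum_rootMultiplicity_le V₃
  have hle4 := sum_rootMultiplicity_le V₄
  have htot : ∑ α : F, V₃.rootMultiplicity α + ∑ α : F, V₄.rootMultiplicity α = 2 * q := by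
    rw [← Finset.sum_add_distrib, Finset.sum_congr rfl fun α _ => hsum α, Finset.sum_const,
      Finset.card_univ, smul_eq_mul, mul_comm]
  have hV4 : V₄.natDegree = ∑ α : F, n α := by
    rw [← Finset.sum_congr rfl fun α _ => hmult α]
    omega
  rw [hcross, hV4]
  omega

end Fermat.Agent.FrobRelB.Manin33Poly
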