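/-
Team B (helper33): **Manin's lemma by a purely polynomial route** (no algebraic closure of the
function field, no Wronskian, no separability).

`k = ZMod r`, `W` a Weierstrass curve over `k` with `Δ ≠ 0`, `K = W.FunctionField`,
`P₀ = (x, y) ∈ W(K)` the generic point, `φ` the `r`-power Frobenius of `K`.  Then

  `deg (P₀ - φ P₀) = #W(𝔽_r)`

for the degree `Q58R.Deg.deg` (height of the `x`-coordinate as a rational function of `x`).

Proof.  Let `(U₃, V₃)`, `(U₄, V₄)` be `x`-ratios of `P₀ + φ P₀`, `P₀ - φ P₀`.  The biquadratic forms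
give `(X ^ r - X) ^ 2 = c V₃ V₄`, `G₁ = c (U₃ V₄ + U₄ V₃)`, `G₂ = c U₃ U₄` with a constant `c`
(`Manin33Forms.forms_eq`), `deg G₁ ≤ 2 r + 1`, `deg G₂ = 2 r + 2`.  For `α ∈ 𝔽_r` the multiplicity of
`X - α` in `V₄` is the number `n_α` of rational points above `α` (`Manin33Eval`, `Manin33Local`),
hence `deg V₄ = ∑ n_α`, `deg U₄ = deg V₄ + 1` (`Manin33Poly.ht_eq_of_local`) and
`1 + ∑ n_α = #W(𝔽_r)` (`Manin33Count.card_point_eq`).
-/
import Mathlib
import Fermat.Agent.FrobRelB.Manin33Poly
import Fermat.Agent.FrobRelB.Manin33Count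
import Fermat.Agent.FrobRelB.Manin33Eval
import Fermat.Agent.FrobRelB.Manin33Forms
import Fermat.Agent.FrobRelB.Manin33Local

set_option autoImplicit false
set_option linter.unusedSectionVars false

open Polynomial

namespace Fermat.Agent.FrobRelB.Manin33Main

open WeierstrassCurve WeierstrassCurve.Affine
open Fermat.Agent.ES.Q58.IotaDescent23 Fermat.Agent.ES.Q58.SubstEmb17
open Fermat.Agent.ES.Q58.PLForms2 Fermat.Agent.ES.Q58.PLPoly2
open Fermat.Agent.Q58R.Deg Fermat.Agent.FrobRel.ManinDefs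
open Fermat.Agent.FrobRelB.Manin33Poly Fermat.Agent.FrobRelB.Manin33Count
open Fermat.Agent.FrobRelB.Manin33Eval Fermat.Agent.FrobRelB.Manin33Forms
open Fermat.Agent.FrobRelB.Manin33Local

variable {r : ℕ} [Fact r.Prime] (W : Affine (ZMod r)) [DecidableEq W.FunctionField]

/-- `W.Equation` over `ZMod r` as an equation of the trivial base change. -/
theorem equation_baseChange_self {α β : ZMod r} (h : W.Equation α β) :
    (W⁄(ZMod r)).Equation α β :=
  (W.map_equation (f := algebraMap (ZMod r) (ZMod r)) Function.injective_id α β).mpr h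

/-- **Manin's lemma for `x`-ratios**: the height of any `x`-ratio of `P₀ - φ P₀` is `#W(𝔽_r)`. -/
theorem manin_ht (hΔ : W.Δ ≠ 0) {U₄ V₄ : (ZMod r)[X]}
    (h₄ : IsXRatio W (Fermat.Agent.ES.Q58.IotaDescent23.genericPoint W hΔ -
      Point.map (W' := W) (frobAlg r W.FunctionField)
        (Fermat.Agent.ES.Q58.IotaDescent23.genericPoint W hΔ)) U₄ V₄) :
    max U₄.natDegree V₄.natDegree = Nat.card W.Point := by
  classical
  have hr2 : 2 ≤ r := (Fact.out : r.Prime).two_le
  have hr0 : r ≠ 0 := by omega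
  have hP₀ := genericPoint_mem_oddPoints W hΔ
  have hφ : Point.map (W' := W) (frobAlg r W.FunctionField)
      (Fermat.Agent.ES.Q58.IotaDescent23.genericPoint W hΔ) ∈ oddPoints W :=
    map_pow_mem_oddPoints (frobAlg r W.FunctionField) (fun z => frobAlg_apply _ z) hP₀
  have h₁ := isXRatio_genericPoint (W := W) hΔ
  have h₂ : IsXRatio W (Point.map (W' := W) (frobAlg r W.FunctionField)
      (Fermat.Agent.ES.Q58.IotaDescent23.genericPoint W hΔ)) (X ^ r) 1 := by
    have := h₁.map_pow hr0 (frobAlg r W.FunctionField) (fun z => frobAlg_apply _ z)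
    rwa [one_pow] at this
  obtain ⟨U₃, V₃, h₃⟩ := exists_isXRatio hΔ (add_mem hP₀ hφ)
  obtain ⟨c, hc, e0, e1, e2⟩ := forms_eq hΔ h₁ h₂ h₃ h₄
  rw [G0_explicit] at e0
  have hcard : Fintype.card (ZMod r) = r := ZMod.card r
  rw [card_point_eq W hΔ]
  refine ht_eq_of_local (F := ZMod r) (U₃ := U₃) (V₃ := V₃) hc (by rw [hcard]; exact e0) e1 e2
    (by rw [hcard]; exact natDegree_G1_le W r hr2) (by rw [hcard]; exact natDegree_G2 W r hr2)
    (fibreCard W) ?_ ?_ ?_ (fibreCard_le_two W)
  · -- two rational points above `α`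
    intro α hα
    obtain ⟨β, hβ, hne⟩ := of_fibreCard_two W α hα
    have hev := eval_sub W hΔ h₄ (Ω := ZMod r) (equation_baseChange_self W hβ) (ZMod.pow_card α)
    rw [ZMod.pow_card, Algebra.algebraMap_self_apply, Algebra.algebraMap_self_apply,
      coe_aeval_eq_eval] at hev
    have hne' : (β + β + W.a₁ * α + W.a₃) ^ 2 ≠ 0 := by
      apply pow_ne_zero
      intro h
      apply hne
      linear_combination h
    refine ⟨(mul_eq_zero.mp hev).resolve_right hne', ?_⟩
    rw [eval_G1 W r α (ZMod.pow_card α), fh_eq_sq W hβ]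
    exact pow_ne_zero _ hne
  · -- no rational point above `α`
    intro α hα
    obtain ⟨v, hv⟩ := exists_equation_of_isAlgClosed W (AlgebraicClosure (ZMod r))
      (algebraMap (ZMod r) (AlgebraicClosure (ZMod r)) α)
    have hu := algebraMap_pow_self (Ω := AlgebraicClosure (ZMod r)) α
    have hne := pow_ne_of_fibreCard_zero W α hα hv
    have hev := eval_add W hΔ h₃ hv hu
    have hne' : (v - v ^ r) ^ 2 ≠ 0 := pow_ne_zero _ (sub_ne_zero.mpr (Ne.symm hne))
    have h0 := (mul_eq_zero.mp hev).resolve_right hne'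
    rw [aeval_algebraMap_apply, map_eq_zero] at h0
    refine ⟨h0, ?_⟩
    rw [eval_G1 W r α (ZMod.pow_card α)]
    exact fh_ne_zero_of_fibreCard_zero W α hα
  · -- one rational point above `α`
    intro α hα
    rw [eval_G1 W r α (ZMod.pow_card α), eval_G2 W r α (ZMod.pow_card α)]
    exact of_fibreCard_one W hΔ α hα

/-- **Manin's lemma**: `deg (P₀ - φ P₀) = #W(𝔽_r)`. -/
theorem manin_deg (hΔ : W.Δ ≠ 0) :
    deg W (Fermat.Agent.ES.Q58.IotaDescent23.genericPoint W hΔ -
      Point.map (W' := W) (frobAlg r W.FunctionField)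
        (Fermat.Agent.ES.Q58.IotaDescent23.genericPoint W hΔ)) = Nat.card W.Point := by
  have hP₀ := genericPoint_mem_oddPoints W hΔ
  have hφ : Point.map (W' := W) (frobAlg r W.FunctionField)
      (Fermat.Agent.ES.Q58.IotaDescent23.genericPoint W hΔ) ∈ oddPoints W :=
    map_pow_mem_oddPoints (frobAlg r W.FunctionField) (fun z => frobAlg_apply _ z) hP₀
  obtain ⟨U₄, V₄, h₄⟩ := exists_isXRatio hΔ (sub_mem hP₀ hφ)
  rw [deg_eq_of_isXRatio h₄]
  exact manin_ht W hΔ h₄

end Fermat.Agent.FrobRelB.Manin33Main
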