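/-
Team B (helper33): **the Frobenius relation on an elliptic curve over `𝔽_r`, unconditionally**
(S58 brick (a), signature of report 129), from helper90's `frobenius_relation_of_manin` and
Manin's lemma `Manin33Main.manin_deg`.
-/
import Mathlib
import Fermat.Agent.FrobRelB.Main
import Fermat.Agent.FrobRelB.Manin33Main

set_option autoImplicit false

namespace Fermat.Agent.FrobRelB.FrobRel33

open WeierstrassCurve WeierstrassCurve.Affine

/-- **The Frobenius relation** `F² - (r + 1 - #E(𝔽_r)) F + r = 0` on `E(L)`, for every elliptic curve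
`E` over `ZMod r`, every field `L` over `ZMod r` and every endomorphism `F` of `L` with `F x = x ^ r`. -/
theorem frobenius_relation {r : ℕ} [Fact r.Prime] (E : WeierstrassCurve (ZMod r)) (hΔ : E.Δ ≠ 0)
    {L : Type*} [Field L] [Algebra (ZMod r) L] [DecidableEq L]
    (F : L →ₐ[ZMod r] L) (hF : ∀ x, F x = x ^ r) (Q : (E⁄L).Point) :
    Point.map (W' := E) F (Point.map (W' := E) F Q)
      - ((r : ℤ) + 1 - (Nat.card E.toAffine.Point : ℤ)) • Point.map (W' := E) F Q
      + (r : ℤ) • Q = 0 := by
  classical
  exact Fermat.Agent.FrobRelB.Main.frobenius_relation_of_manin E hΔ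
    (Fermat.Agent.FrobRelB.Manin33Main.manin_deg E.toAffine hΔ) F hF Q

end Fermat.Agent.FrobRelB.FrobRel33
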