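/-
Team B, brick (F2): existence of a good value `u` for a coprime pair `U, V` with
non-vanishing Wronskian over an algebraically closed field: `U - u V` has
`max (deg U) (deg V)` distinct roots and `u` avoids a prescribed finite set.
Mathlib only.
-/
import Mathlib

namespace Fermat.Agent.FrobRelB.GoodValue33

open Polynomial

variable {Ω : Type*} [Field Ω]

/-- The coefficient of `U - C u * V` in degree `n`. -/
theorem coeff_sub_C_mul (U V : Polynomial Ω) (u : Ω) (n : ℕ) :
    (U - C u * V).coeff n = U.coeff n - u * V.coeff n := by
  simp [coeff_sub, coeff_C_mul]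

/-- `U - C u * V` has degree at most `max (deg U) (deg V)`. -/
theorem natDegree_sub_C_mul_le (U V : Polynomial Ω) (u : Ω) :
    (U - C u * V).natDegree ≤ max U.natDegree V.natDegree := by
  refine (natDegree_sub_le _ _).trans ?_
  exact max_le_max le_rfl (natDegree_C_mul_le _ _)

/-- For a coprime pair the two coefficients in degree `max (deg U) (deg V)` do not both vanish. -/
theorem coeff_max_ne_zero {U V : Polynomial Ω} (hUV : IsCoprime U V) :
    U.coeff (max U.natDegree V.natDegree) ≠ 0 ∨ V.coeff (max U.natDegree V.natDegree) ≠ 0 := by
  rcases le_total V.natDegree U.natDegree with h | h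
  · rw [max_eq_left h]
    by_cases hU : U = 0
    · right
      subst hU
      have hV : IsUnit V := isCoprime_zero_left.1 hUV
      have h0 : V.natDegree = 0 := natDegree_eq_zero_of_isUnit hV
      simp only [natDegree_zero]
      intro hc
      have : V = 0 := by
        rw [eq_C_of_natDegree_eq_zero h0, hc, C_0]
      exact hV.ne_zero this
    · left
      simpa using hU
  · rw [max_eq_right h]
    by_cases hV : V = 0
    · left
      subst hV
      have hU : IsUnit U := isCoprime_zero_right.1 hUV
      have h0 : U.natDegree = 0 := natDegree_eq_zero_of_isUnit hU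
      simp only [natDegree_zero]
      intro hc
      have : U = 0 := by
        rw [eq_C_of_natDegree_eq_zero h0, hc, C_0]
      exact hU.ne_zero this
    · right
      simpa using hV

/-- Brick (F2). -/
theorem exists_good_value [IsAlgClosed Ω] {U V : Polynomial Ω}
    (hUV : IsCoprime U V) (hw : derivative U * V - U * derivative V ≠ 0) (B : Finset Ω) :
    ∃ u : Ω, u ∉ B ∧ (U - C u * V).roots.Nodup ∧
      Multiset.card (U - C u * V).roots = max U.natDegree V.natDegree := by
  classical
  set n := max U.natDegree V.natDegree with hn
  set w := derivative U * V - U * derivative V with hwdef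
  -- the finite set of bad values
  let Bad : Finset Ω :=
    B ∪ {U.coeff n / V.coeff n} ∪ (w.roots.toFinset.image fun z => eval z U / eval z V)
  obtain ⟨u, hu⟩ := Infinite.exists_notMem_finset Bad
  have huB : u ∉ B := fun h => hu (by simp [Bad, h])
  have hu0 : u ≠ U.coeff n / V.coeff n := fun h => hu (by simp [Bad, h])
  have huz : ∀ z, w.IsRoot z → u ≠ eval z U / eval z V := by
    intro z hz h
    apply hu
    simp only [Bad, Finset.mem_union, Finset.mem_image, Multiset.mem_toFinset]
    right
    exact ⟨z, (mem_roots hw).2 hz, h.symm⟩
  -- the top coefficient does not vanish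
  have hcoeff : (U - C u * V).coeff n ≠ 0 := by
    rw [coeff_sub_C_mul]
    intro h0
    have h1 : U.coeff n = u * V.coeff n := sub_eq_zero.1 h0
    by_cases hV : V.coeff n = 0
    · rcases coeff_max_ne_zero hUV with h | h
      · exact h (by rw [← hn, h1, hV, mul_zero])
      · exact h (by rw [← hn, hV])
    · exact hu0 (by rw [h1, mul_div_assoc, div_self hV, mul_one])
  have hF0 : U - C u * V ≠ 0 := fun h => hcoeff (by rw [h, coeff_zero])
  have hdeg : (U - C u * V).natDegree = n :=
    le_antisymm (natDegree_sub_C_mul_le U V u) (le_natDegree_of_ne_zero hcoeff)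
  refine ⟨u, huB, ?_, ?_⟩
  · -- no multiple roots
    rw [Multiset.nodup_iff_count_le_one]
    intro z
    rw [count_roots]
    by_contra hlt
    have hlt' : 1 < (U - C u * V).rootMultiplicity z := not_le.1 hlt
    obtain ⟨hr, hr'⟩ := (one_lt_rootMultiplicity_iff_isRoot hF0).1 hlt'
    have e1 : eval z U = u * eval z V := by
      have := hr
      simp only [IsRoot.def, eval_sub, eval_mul, eval_C] at this
      exact sub_eq_zero.1 this
    have e2 : eval z (derivative U) = u * eval z (derivative V) := by
      have := hr'
      simp only [IsRoot.def, derivative_sub, derivative_mul, derivative_C, zero_mul, zero_add,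
        eval_sub, eval_mul, eval_C] at this
      exact sub_eq_zero.1 this
    have hwz : w.IsRoot z := by
      simp only [hwdef, IsRoot.def, eval_sub, eval_mul, e1, e2]
      ring
    have hVz : eval z V ≠ 0 := by
      intro hV0
      have hU0 : eval z U = 0 := by rw [e1, hV0, mul_zero]
      obtain ⟨a, b, hab⟩ := hUV
      have := congrArg (eval z) hab
      simp only [eval_add, eval_mul, hU0, hV0, mul_zero, add_zero, eval_one] at this
      exact zero_ne_one this
    exact huz z hwz (by rw [e1, mul_div_assoc, div_self hVz, mul_one])
  · rw [IsAlgClosed.card_roots_eq_natDegree, hdeg]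

end Fermat.Agent.FrobRelB.GoodValue33
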