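/-
Programme Q (S58), Team B (helper90): **Manin's lemma** `deg (P₀ - φ P₀) = #W(𝔽_r)`, by counting the
roots of `U(Z) - x_R V(Z)` in an algebraic closure of the function field (the route of helper76's
plan, report 172), on top of the landed sub-bricks (MA) `ManinMA80.wronskian_ne_zero`,
(MB) `ManinMB74.exists_of_frob_fixed`, (MC) `ManinMC38.two_nsmul_genericPoint_not_mem_algPoints`.

`r` prime, `k = ZMod r`, `W` over `k` with `Δ ≠ 0`, `K = W.FunctionField`, `L` an algebraic closure
of `K`, `R = P₀ - φ P₀ = (x_R, y_R)`, `x_R = U / V` with `U V : k[X]` coprime, `n = max (deg U) (deg V)`.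

* `deg_pos` : `n ≥ 1` (quadratic-form argument: `deg R = 0` would force `deg (φ P₀) = deg P₀`);
* `F = U(Z) - x_R V(Z) ∈ L[Z]` has degree `n` and no multiple root (`x_R` is transcendental);
* the roots of `F` are exactly the `x(P₀ + T)`, `T ∈ W(k)`, and `T ↦ x(P₀ + T)` is injective;
* hence `#W(k) = n`.
-/
import Mathlib
import Fermat.Agent.Q58R.Deg
import Fermat.Agent.ES.Q58.QuadRel18
import Fermat.Agent.FrobRel.ManinDefs
import Fermat.Agent.FrobRel.ManinMA80
import Fermat.Agent.FrobRel.ManinMB74
import Fermat.Agent.FrobRel.ManinMC38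
import Fermat.Agent.FrobRel.Specialize32
import Fermat.Agent.FrobRelB.Generic
import Fermat.Agent.FrobRelB.GoodValue33

set_option autoImplicit false
set_option linter.unusedSectionVars false

open Polynomial

namespace Fermat.Agent.FrobRelB.Manin90

open WeierstrassCurve WeierstrassCurve.Affine
open Fermat.Agent.ES.Q58.IotaDescent23 Fermat.Agent.ES.Q58.SubstEmb17
open Fermat.Agent.ES.Q58.PLPoly2 Fermat.Agent.ES.Q58.QuadRel18
open Fermat.Agent.Q58R.Deg Fermat.Agent.FrobRel.ManinDefs
open Fermat.Agent.FrobRelB.Generic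

variable {r : ℕ} [Fact r.Prime] {W : Affine (ZMod r)} [DecidableEq W.FunctionField]

/-! ### positivity of the degree of `P₀ - φ P₀` -/

/-- `deg (P₀ - φ P₀) ≠ 0`: a point `T` of degree `0` satisfies `deg (P₀ - T) = deg P₀`. -/
theorem deg_pos (hΔ : W.Δ ≠ 0) :
    0 < deg W (Fermat.Agent.ES.Q58.IotaDescent23.genericPoint W hΔ
      - phi W (Fermat.Agent.ES.Q58.IotaDescent23.genericPoint W hΔ)) := by
  set P₀ := Fermat.Agent.ES.Q58.IotaDescent23.genericPoint W hΔ with hP₀
  have hP₀odd : P₀ ∈ oddPoints W := genericPoint_mem_oddPoints W hΔ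
  have h1odd : phi W P₀ ∈ oddPoints W := phi_mem_oddPoints hP₀odd
  by_contra hcon
  have h0 : deg W (P₀ - phi W P₀) = 0 := by omega
  have hPL := dInt_PL (W := W) hΔ
  let e0 : ↥(oddPoints W) := ⟨P₀, hP₀odd⟩
  let t : ↥(oddPoints W) := ⟨P₀ - phi W P₀, sub_mem hP₀odd h1odd⟩
  have dnn : ∀ x : ↥(oddPoints W), 0 ≤ dInt W x := fun x => Int.natCast_nonneg _
  have d0 : dInt W e0 = 1 := by
    show ((deg W P₀ : ℕ) : ℤ) = 1
    rw [hP₀, deg_genericPoint hΔ]; rfl
  have dt : dInt W t = 0 := by
    show ((deg W (P₀ - phi W P₀) : ℕ) : ℤ) = 0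
    rw [h0]; rfl
  -- the polar form `b = B(t, e0)` vanishes
  set b : ℤ := polar (dInt W) t e0 with hb
  have d2t : dInt W ((2 : ℤ) • t) = 0 := by rw [d_zsmul hPL, dt, mul_zero]
  have h1 : dInt W ((2 : ℤ) • t + e0) = 2 * b + 1 := by
    rw [d_add (d := dInt W), d2t, d0, polar_zsmul_left hPL, ← hb]; ring
  have h2 : dInt W ((2 : ℤ) • t - e0) = 1 - 2 * b := by
    rw [d_sub' hPL, d2t, d0, polar_zsmul_left hPL, ← hb]; ring
  have hb0 : b = 0 := by
    have := dnn ((2 : ℤ) • t + e0)
    have := dnn ((2 : ℤ) • t - e0)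
    omega
  -- hence `d (e0 - t) = d e0 = 1`, but `e0 - t = φ P₀` has degree `r`
  have h3 : dInt W (e0 - t) = 1 := by
    rw [d_sub' hPL, d0, dt, polar_comm, ← hb, hb0]; ring
  have h4 : dInt W (e0 - t) = (r : ℤ) := by
    show ((deg W (P₀ - (P₀ - phi W P₀)) : ℕ) : ℤ) = r
    rw [sub_sub_cancel, deg_phi hΔ hP₀odd, hP₀, deg_genericPoint hΔ, mul_one]
  have : (r : ℤ) = 1 := by rw [← h4, h3]
  have hr := (Fact.out : r.Prime).one_lt
  omega


/-! ### the root count -/

section Count

variable {L : Type*} [Field L] [Algebra (ZMod r) L] [DecidableEq L]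

/-- the `x`-coordinate of a point (`0` at infinity). -/
noncomputable def xc : (W⁄L).Point → L
  | .zero => 0
  | .some x _ _ => x

theorem xc_some {x y : L} (h : (W⁄L).Nonsingular x y) : xc (W := W) (Point.some x y h) = x := rfl

theorem xc_neg_some {x y : L} (h : (W⁄L).Nonsingular x y) :
    xc (W := W) (-Point.some x y h) = x := by
  rw [Point.neg_some]; rfl

/-- Frobenius on the points over `L`. -/
noncomputable abbrev phiL (W : Affine (ZMod r)) (L : Type*) [Field L] [Algebra (ZMod r) L]
    [DecidableEq L] : (W⁄L).Point →+ (W⁄L).Point :=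
  Point.map (W' := W) (frobAlg r L)

/-- the base change of a rational point. -/
noncomputable abbrev bc (W : Affine (ZMod r)) (L : Type*) [Field L] [Algebra (ZMod r) L]
    [DecidableEq L] : (W⁄(ZMod r)).Point →+ (W⁄L).Point :=
  Point.map (W' := W) (Algebra.ofId (ZMod r) L)

theorem phiL_bc (T : (W⁄(ZMod r)).Point) : phiL W L (bc W L T) = bc W L T :=
  Fermat.Agent.FrobRel.ManinMB74.frob_map_ofId W L T

theorem bc_mem_algPoints (T : (W⁄(ZMod r)).Point) : bc W L T ∈ algPoints W L :=
  map_mem_algPoints W (Algebra.ofId (ZMod r) L) T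

/-- every `ZMod r`-algebra map commutes with Frobenius on points. -/
theorem map_phi_general {M : Type*} [Field M] [Algebra (ZMod r) M] [DecidableEq M]
    (σ : M →ₐ[ZMod r] L) (S : (W⁄M).Point) :
    Point.map (W' := W) σ (Point.map (W' := W) (frobAlg r M) S) =
      phiL W L (Point.map (W' := W) σ S) := by
  rw [Point.map_map, Point.map_map, comp_frobAlg]

variable (ι : W.FunctionField →ₐ[ZMod r] L)

/-- `aeval` of an algebraic element is algebraic. -/
theorem isAlgebraic_aeval {z : L} (hz : IsAlgebraic (ZMod r) z) (p : (ZMod r)[X]) :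
    IsAlgebraic (ZMod r) (aeval z p) := by
  by_contra hcon
  exact ((transcendental_aeval_iff (K := ZMod r)).mp hcon).1 hz

section Data

variable (hΔ : W.Δ ≠ 0) {xR yR : W.FunctionField} (h : (W⁄W.FunctionField).Nonsingular xR yR)
  (hR : Fermat.Agent.ES.Q58.IotaDescent23.genericPoint W hΔ
    - phi W (Fermat.Agent.ES.Q58.IotaDescent23.genericPoint W hΔ) = Point.some xR yR h)
  {U V : (ZMod r)[X]} (hUV : IsCoprime U V) (hx : xR * cK W V = cK W U)

/-- the polynomial `F = U(Z) - x_R V(Z)` over `L`. -/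
noncomputable def polyF (ι : W.FunctionField →ₐ[ZMod r] L) (xR : W.FunctionField)
    (U V : (ZMod r)[X]) : L[X] :=
  U.map (algebraMap (ZMod r) L) - C (ι xR) * V.map (algebraMap (ZMod r) L)

theorem isRoot_polyF_iff {z : L} :
    (polyF ι xR U V).IsRoot z ↔ aeval z U = ι xR * aeval z V := by
  unfold polyF
  rw [IsRoot.def, eval_sub, eval_mul, eval_C, eval_map_algebraMap, eval_map_algebraMap,
    sub_eq_zero]

include hUV in
theorem aeval_V_ne_zero {z : L} (hz : aeval z U = ι xR * aeval z V) : aeval z V ≠ 0 := by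
  intro hV0
  have hU0 : aeval z U = 0 := by rw [hz, hV0, mul_zero]
  obtain ⟨a, b, hab⟩ := hUV
  have := congrArg (aeval z) hab
  rw [map_add, map_mul, map_mul, hU0, hV0, mul_zero, mul_zero, add_zero, map_one] at this
  exact zero_ne_one this

include hUV in
/-- the roots of `F` are transcendental over `ZMod r`, as soon as `x_R` is. -/
theorem transcendental_of_isRoot (hxR : Transcendental (ZMod r) xR) {z : L}
    (hz : aeval z U = ι xR * aeval z V) : Transcendental (ZMod r) z := by
  intro halg
  have hV := aeval_V_ne_zero ι hUV hz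
  have h1 : ι xR = aeval z U / aeval z V := by rw [hz, mul_div_assoc, div_self hV, mul_one]
  have h2 : IsAlgebraic (ZMod r) (ι xR) := by
    rw [h1, div_eq_mul_inv]
    exact (isAlgebraic_aeval halg U).mul (isAlgebraic_aeval halg V).inv
  exact transcendental_map ι hxR h2

include hR hx in
/-- **substitution at a point with transcendental `x`-coordinate** : `σ_S R = S - φ S`, and the
`x`-coordinate of this point satisfies the relation of `U / V` at `x(S)`. -/
theorem subst_spec {u v : L} (huv : (W⁄L).Nonsingular u v) (hu : Transcendental (ZMod r) u) :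
    ∃ (x' y' : L) (h' : (W⁄L).Nonsingular x' y'),
      Point.some u v huv - phiL W L (Point.some u v huv) = Point.some x' y' h' ∧
      x' * aeval u V = aeval u U := by
  have hσP₀ : Point.map (W' := W) (substHom W huv.1 hu)
      (Fermat.Agent.ES.Q58.IotaDescent23.genericPoint W hΔ) = Point.some u v huv :=
    map_substHom_genericPoint W hΔ huv hu
  have h1 := congrArg (Point.map (W' := W) (substHom W huv.1 hu)) hR
  rw [map_sub, map_phi_general, hσP₀, Point.map_some] at h1
  refine ⟨_, _, _, h1, ?_⟩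
  have h2 := congrArg (substHom W huv.1 hu) hx
  rwa [map_mul, substHom_algebraMap_polynomial, substHom_algebraMap_polynomial] at h2

include hR in
/-- the image of `R` in `W(L)`. -/
theorem map_iota_R :
    Point.map (W' := W) ι (Fermat.Agent.ES.Q58.IotaDescent23.genericPoint W hΔ)
      - phiL W L (Point.map (W' := W) ι (Fermat.Agent.ES.Q58.IotaDescent23.genericPoint W hΔ))
      = Point.some (ι xR) (ι yR) ((W.baseChange_nonsingular ι.injective ..).mpr h) := by
  have h1 := congrArg (Point.map (W' := W) ι) hR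
  rwa [map_sub, map_phi_general, Point.map_some] at h1

include hR hx in
/-- **rational points give roots.** -/
theorem isRoot_of_rational (T : (W⁄(ZMod r)).Point) :
    ∃ (u v : L) (huv : (W⁄L).Nonsingular u v),
      Point.map (W' := W) ι (Fermat.Agent.ES.Q58.IotaDescent23.genericPoint W hΔ) + bc W L T
        = Point.some u v huv ∧ (polyF ι xR U V).IsRoot u := by
  obtain ⟨u, v, huv, hu, hsum⟩ :=
    Fermat.Agent.FrobRel.Specialize32.exists_transcendental_of_map_genericPoint_add W hΔ ι
      (bc_mem_algPoints (L := L) T)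
  refine ⟨u, v, huv, hsum, ?_⟩
  obtain ⟨x', y', h', e1, e2⟩ := subst_spec hΔ h hR hx huv hu
  -- `S - φ S = R'`
  have e3 : Point.some u v huv - phiL W L (Point.some u v huv) =
      Point.some (ι xR) (ι yR) ((W.baseChange_nonsingular ι.injective ..).mpr h) := by
    rw [← hsum, map_add, phiL_bc, ← map_iota_R ι hΔ h hR]
    abel
  rw [e1] at e3
  have hx' : x' = ι xR := (Point.some.inj e3).1
  rw [isRoot_polyF_iff, ← hx', e2]

/-- over an algebraically closed field every `x` is the `x`-coordinate of a point. -/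
theorem exists_nonsingular [IsAlgClosed L] (hΔ : W.Δ ≠ 0) (z : L) :
    ∃ w : L, (W⁄L).Nonsingular z w := by
  have hdeg : (Fermat.Agent.ES.Q58.CardBound20.quad (W⁄L) z).degree ≠ 0 := by
    rw [degree_eq_natDegree (Fermat.Agent.ES.Q58.CardBound20.quad_ne_zero _ _),
      Fermat.Agent.ES.Q58.CardBound20.quad_natDegree]
    norm_num
  obtain ⟨w, hw⟩ := IsAlgClosed.exists_root _ hdeg
  refine ⟨w, ?_⟩
  rw [← (W⁄L).equation_iff_nonsingular_of_Δ_ne_zero
    (Fermat.Agent.FrobRel.ManinMA80.baseChange_Δ_ne_zero W hΔ)]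
  exact (Fermat.Agent.ES.Q58.CardBound20.isRoot_quad_iff _ _ _).mp hw

/-- `2 P₀` is not an algebraic point, in any extension of the function field. -/
theorem two_nsmul_not_mem_algPoints :
    (2 : ℕ) • Point.map (W' := W) ι (Fermat.Agent.ES.Q58.IotaDescent23.genericPoint W hΔ)
      ∉ algPoints W L := by
  have hMC := Fermat.Agent.FrobRel.ManinMC38.two_nsmul_genericPoint_not_mem_algPoints W hΔ
  rw [← map_nsmul]
  rcases hQ : (2 : ℕ) • Fermat.Agent.ES.Q58.IotaDescent23.genericPoint W hΔ with _ | ⟨x₂, y₂, h₂⟩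
  · exfalso
    rw [hQ] at hMC
    exact hMC (zero_mem _)
  · rw [hQ, some_mem_algPoints_iff] at hMC
    rw [Point.map_some, some_mem_algPoints_iff]
    intro halg
    exact hMC ((isAlgebraic_algHom_iff ι ι.injective).mp halg)

include hR hx hUV in
/-- **roots come from rational points.** -/
theorem rational_of_isRoot [IsAlgClosed L] (hxR : Transcendental (ZMod r) xR) {z : L}
    (hz : (polyF ι xR U V).IsRoot z) :
    ∃ T : (W⁄(ZMod r)).Point,
      xc (W := W) (Point.map (W' := W) ι (Fermat.Agent.ES.Q58.IotaDescent23.genericPoint W hΔ)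
        + bc W L T) = z := by
  rw [isRoot_polyF_iff] at hz
  have hztr := transcendental_of_isRoot ι hUV hxR hz
  have hV := aeval_V_ne_zero ι hUV hz
  obtain ⟨w, hzw⟩ := exists_nonsingular (W := W) hΔ z
  obtain ⟨x', y', h', e1, e2⟩ := subst_spec hΔ h hR hx hzw hztr
  have hx' : x' = ι xR := by
    have : x' * aeval z V = ι xR * aeval z V := by rw [e2, hz]
    exact mul_right_cancel₀ hV this
  set P₀' := Point.map (W' := W) ι (Fermat.Agent.ES.Q58.IotaDescent23.genericPoint W hΔ)
    with hP₀'
  set S := Point.some z w hzw with hS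
  have hR' := map_iota_R ι hΔ h hR
  rw [← hP₀'] at hR'
  -- `S - φ S = ± R'`
  have hpm : S - phiL W L S = P₀' - phiL W L P₀' ∨ S - phiL W L S = -(P₀' - phiL W L P₀') := by
    apply Point.xRep_eq_xRep_iff.mp
    rw [e1, hR', Point.xRep_some, Point.xRep_some, hx']
  rcases hpm with hp | hm
  · -- `S - P₀'` is Frobenius-fixed
    have hfix : phiL W L (S - P₀') = S - P₀' := by
      rw [map_sub]
      have := congrArg (fun X => X) hp
      have e : phiL W L S - phiL W L P₀' = S - P₀' - ((S - phiL W L S) - (P₀' - phiL W L P₀')) := by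
        abel
      rw [e, hp, sub_self, sub_zero]
    obtain ⟨T, hT⟩ := Fermat.Agent.FrobRel.ManinMB74.exists_of_frob_fixed W L (S - P₀') hfix
    refine ⟨T, ?_⟩
    have : P₀' + bc W L T = S := by
      show P₀' + Point.map (W' := W) (Algebra.ofId (ZMod r) L) T = S
      rw [hT]; abel
    rw [this, hS, xc_some]
  · -- `S + P₀'` is Frobenius-fixed
    have hfix : phiL W L (S + P₀') = S + P₀' := by
      rw [map_add]
      have e : phiL W L S + phiL W L P₀' =
          S + P₀' - ((S - phiL W L S) + (P₀' - phiL W L P₀')) := by abel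
      rw [e, hm, neg_add_cancel, sub_zero]
    obtain ⟨T, hT⟩ := Fermat.Agent.FrobRel.ManinMB74.exists_of_frob_fixed W L (S + P₀') hfix
    refine ⟨-T, ?_⟩
    have : P₀' + bc W L (-T) = -S := by
      show P₀' + Point.map (W' := W) (Algebra.ofId (ZMod r) L) (-T) = -S
      rw [map_neg, hT]; abel
    rw [this, hS, xc_neg_some]

include hR hx in
/-- **`T ↦ x(P₀ + T)` is injective on the rational points.** -/
theorem xc_injective {T T' : (W⁄(ZMod r)).Point}
    (hTT' : xc (W := W) (Point.map (W' := W) ι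
        (Fermat.Agent.ES.Q58.IotaDescent23.genericPoint W hΔ) + bc W L T)
      = xc (W := W) (Point.map (W' := W) ι
        (Fermat.Agent.ES.Q58.IotaDescent23.genericPoint W hΔ) + bc W L T')) : T = T' := by
  obtain ⟨u, v, huv, hsum, -⟩ := isRoot_of_rational ι hΔ h hR hx (U := U) (V := V) T
  obtain ⟨u', v', huv', hsum', -⟩ := isRoot_of_rational ι hΔ h hR hx (U := U) (V := V) T'
  set P₀' := Point.map (W' := W) ι (Fermat.Agent.ES.Q58.IotaDescent23.genericPoint W hΔ)
    with hP₀'
  rw [hsum, hsum', xc_some, xc_some] at hTT'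
  have hpm : P₀' + bc W L T = P₀' + bc W L T' ∨ P₀' + bc W L T = -(P₀' + bc W L T') := by
    apply Point.xRep_eq_xRep_iff.mp
    rw [hsum, hsum', Point.xRep_some, Point.xRep_some, hTT']
  rcases hpm with hp | hm
  · have : bc W L T = bc W L T' := add_left_cancel hp
    exact Point.map_injective (W' := W) (Algebra.ofId (ZMod r) L) this
  · exfalso
    apply two_nsmul_not_mem_algPoints (W := W) ι hΔ
    have e : (2 : ℕ) • P₀' = -(bc W L T) - bc W L T' := by
      rw [two_nsmul]
      have := congrArg (fun X => X - bc W L T + P₀') hm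
      beta_reduce at this
      have e1 : P₀' + bc W L T - bc W L T + P₀' = P₀' + P₀' := by abel
      rw [e1] at this
      rw [this]; abel
    rw [← hP₀', e]
    exact sub_mem (neg_mem (bc_mem_algPoints T)) (bc_mem_algPoints T')

include hUV in
/-- the degree of `F`. -/
theorem natDegree_polyF (hxR : Transcendental (ZMod r) xR) :
    (polyF ι xR U V).natDegree = max U.natDegree V.natDegree ∧ polyF ι xR U V ≠ 0 := by
  set n := max U.natDegree V.natDegree with hn
  have hinj : Function.Injective (algebraMap (ZMod r) L) :=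
    FaithfulSMul.algebraMap_injective (ZMod r) L
  have hcoeff : (polyF ι xR U V).coeff n ≠ 0 := by
    unfold polyF
    rw [Fermat.Agent.FrobRelB.GoodValue33.coeff_sub_C_mul, coeff_map, coeff_map]
    intro h0
    have h1 : algebraMap (ZMod r) L (U.coeff n) = ι xR * algebraMap (ZMod r) L (V.coeff n) :=
      sub_eq_zero.mp h0
    by_cases hV : V.coeff n = 0
    · rw [hV, map_zero, mul_zero] at h1
      have hU : U.coeff n = 0 := hinj (by rw [h1, map_zero])
      rcases Fermat.Agent.FrobRelB.GoodValue33.coeff_max_ne_zero hUV with h | h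
      · exact h hU
      · exact h hV
    · have hV' : algebraMap (ZMod r) L (V.coeff n) ≠ 0 := by
        rw [Ne, map_eq_zero_iff _ hinj]; exact hV
      have h2 : ι xR = algebraMap (ZMod r) L (U.coeff n / V.coeff n) := by
        rw [map_div₀, eq_div_iff hV', h1]
      exact transcendental_map ι hxR (h2 ▸ isAlgebraic_algebraMap _)
  have hF0 : polyF ι xR U V ≠ 0 := fun h => hcoeff (by rw [h, coeff_zero])
  refine ⟨le_antisymm ?_ (le_natDegree_of_ne_zero hcoeff), hF0⟩
  unfold polyF
  refine (Fermat.Agent.FrobRelB.GoodValue33.natDegree_sub_C_mul_le _ _ _).trans ?_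
  rw [natDegree_map, natDegree_map]

include hUV in
/-- `F` has no multiple root. -/
theorem nodup_roots_polyF (hxR : Transcendental (ZMod r) xR)
    (hw : derivative U * V - U * derivative V ≠ 0) : (polyF ι xR U V).roots.Nodup := by
  classical
  obtain ⟨-, hF0⟩ := natDegree_polyF ι hUV hxR
  rw [Multiset.nodup_iff_count_le_one]
  intro z
  rw [count_roots]
  by_contra hlt
  have hlt' : 1 < (polyF ι xR U V).rootMultiplicity z := not_le.1 hlt
  obtain ⟨hr, hr'⟩ := (one_lt_rootMultiplicity_iff_isRoot hF0).1 hlt'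
  have hz := (isRoot_polyF_iff ι).mp hr
  have e1 : aeval z U = ι xR * aeval z V := hz
  have e2 : aeval z (derivative U) = ι xR * aeval z (derivative V) := by
    have := hr'
    unfold polyF at this
    simp only [IsRoot.def, derivative_sub, derivative_mul, derivative_C, zero_mul, zero_add,
      eval_sub, eval_mul, eval_C, derivative_map, eval_map_algebraMap] at this
    exact sub_eq_zero.1 this
  have hwz : aeval z (derivative U * V - U * derivative V) = 0 := by
    rw [map_sub, map_mul, map_mul, e1, e2]; ring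
  exact transcendental_of_isRoot ι hUV hxR hz ⟨_, hw, hwz⟩

end Data

end Count

/-! ### Manin's lemma -/

/-- **Manin's lemma**: `deg (P₀ - φ P₀) = #W(𝔽_r)`. -/
theorem manin (hΔ : W.Δ ≠ 0) :
    deg W (Fermat.Agent.ES.Q58.IotaDescent23.genericPoint W hΔ
      - phi W (Fermat.Agent.ES.Q58.IotaDescent23.genericPoint W hΔ)) = Nat.card W.Point := by
  classical
  set P₀ := Fermat.Agent.ES.Q58.IotaDescent23.genericPoint W hΔ with hP₀
  have hP₀odd : P₀ ∈ oddPoints W := genericPoint_mem_oddPoints W hΔ
  have hRodd : P₀ - phi W P₀ ∈ oddPoints W := sub_mem hP₀odd (phi_mem_oddPoints hP₀odd)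
  have hpos := deg_pos (W := W) hΔ
  rw [← hP₀] at hpos
  obtain ⟨U, V, hUV⟩ := exists_isXRatio hΔ hRodd
  rw [deg_eq_of_isXRatio hUV] at hpos ⊢
  obtain ⟨xR, yR, h, hR, hxR⟩ := exists_some_of_ht_pos hUV hpos
  rw [hR] at hUV
  obtain ⟨hc, hx⟩ := (isXRatio_some_iff h).mp hUV
  have hw : derivative U * V - U * derivative V ≠ 0 :=
    Fermat.Agent.FrobRel.ManinMA80.wronskian_ne_zero W hΔ h hR hc hx
  -- the algebraic closure of the function field
  let L := AlgebraicClosure W.FunctionField
  let ι : W.FunctionField →ₐ[ZMod r] L := IsScalarTower.toAlgHom (ZMod r) W.FunctionField L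
  obtain ⟨hdeg, hF0⟩ := natDegree_polyF ι hc hxR
  have hnodup := nodup_roots_polyF ι hc hxR hw
  -- the bijection between rational points and roots
  have hmem : ∀ T : (W⁄(ZMod r)).Point,
      xc (W := W) (Point.map (W' := W) ι P₀ + bc W L T) ∈ (polyF ι xR U V).roots.toFinset := by
    intro T
    obtain ⟨u, v, huv, hsum, hroot⟩ := isRoot_of_rational ι hΔ h hR hx T
    rw [hsum, xc_some, Multiset.mem_toFinset, mem_roots hF0]
    exact hroot
  let f : (W⁄(ZMod r)).Point → {z : L // z ∈ (polyF ι xR U V).roots.toFinset} :=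
    fun T => ⟨_, hmem T⟩
  have hf : Function.Bijective f := by
    constructor
    · intro T T' hTT'
      exact xc_injective ι hΔ h hR hx (U := U) (V := V) (congrArg Subtype.val hTT')
    · rintro ⟨z, hz⟩
      rw [Multiset.mem_toFinset, mem_roots hF0] at hz
      obtain ⟨T, hT⟩ := rational_of_isRoot ι hΔ h hR hc hx hxR hz
      exact ⟨T, Subtype.ext hT⟩
  have hcard : Nat.card (W⁄(ZMod r)).Point = ht U V := by
    rw [Nat.card_congr (Equiv.ofBijective f hf), Nat.card_eq_fintype_card, Fintype.card_coe,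
      Multiset.toFinset_card_of_nodup hnodup, IsAlgClosed.card_roots_eq_natDegree, hdeg]
    rfl
  rw [← hcard]
  exact Fermat.Agent.FrobRel.ManinMB74.card_baseChange_self W

end Fermat.Agent.FrobRelB.Manin90
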