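/-
Programme S58, Team B, brick (F5) (helper32): **counting assembly of Manin's lemma by the
special-fibre route.**

`r` prime, `W` a Weierstrass curve over `ZMod r`, `Δ ≠ 0`, `K = W.FunctionField`, `P₀` the generic
point, `φ` the `r`-power Frobenius, `R = P₀ - φ P₀` with `x`-ratio `(U, V)`.  `Ω` an algebraically
closed field over `ZMod r`, `ψ = 1 - φ` on `W(Ω)`.  For a good value `u ∈ Ω` the fibre of `ψ` over a
point `T = (u, v)` is in bijection with the roots of `U - u V`; the fibre is a coset of `ker ψ`, the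
group of Frobenius-fixed points.  Hence `deg R = ht (U, V) = #W(𝔽_r)`.
-/
import Mathlib
import Fermat.Agent.Q58R.Deg
import Fermat.Agent.FrobRel.ManinDefs
import Fermat.Agent.ES.Q58.QuadRel18

set_option autoImplicit false
set_option linter.unusedSectionVars false

open Polynomial

namespace Fermat.Agent.FrobRelB.ManinCount32

open WeierstrassCurve WeierstrassCurve.Affine
open Fermat.Agent.ES.Q58.IotaDescent23 Fermat.Agent.ES.Q58.SubstEmb17
open Fermat.Agent.ES.Q58.PLForms2 Fermat.Agent.ES.Q58.PLPoly2 Fermat.Agent.ES.Q58.PLCurve2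
open Fermat.Agent.ES.Q58.QuadRel18
open Fermat.Agent.Q58R.Deg Fermat.Agent.FrobRel.ManinDefs

/-! ### A positive semidefinite quadratic form: null vectors are orthogonal to everything -/

section PSD

variable {M : Type*} [AddCommGroup M] {d : M → ℤ}

/-- for a nonnegative function satisfying the exact parallelogram law, adding a null vector does not
change the value. -/
theorem d_add_of_d_eq_zero (hPL : ∀ x y : M, d (x + y) + d (x - y) = 2 * d x + 2 * d y)
    (hnn : ∀ x, 0 ≤ d x) {T : M} (hT : d T = 0) (S : M) : d (T + S) = d S := by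
  have key : ∀ n : ℤ, d (n • T + S) = d S + n * polar d T S := by
    intro n
    rw [d_add (d := d), d_zsmul hPL, hT, polar_zsmul_left hPL]
    ring
  have hp : polar d T S = 0 := by
    by_contra hp
    have h1 := hnn ((-(d S + 1) * polar d T S) • T + S)
    rw [key] at h1
    have h2 : 1 ≤ polar d T S ^ 2 := by
      have : 0 < polar d T S ^ 2 := by positivity
      linarith
    have h3 := hnn S
    nlinarith
  have := key 1
  rw [one_smul, hp, mul_zero, add_zero] at this
  exact this

end PSD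

/-! ### Positivity of the degree of `P₀ ± φ P₀` -/

section Pos

variable {r : ℕ} [Fact r.Prime] (W : Affine (ZMod r)) [DecidableEq W.FunctionField]

/-- the Frobenius endomorphism of the points over the function field. -/
noncomputable abbrev frobK : (W⁄W.FunctionField).Point →+ (W⁄W.FunctionField).Point :=
  Point.map (W' := W) (frobAlg r W.FunctionField)

theorem frobK_mem_oddPoints {R : (W⁄W.FunctionField).Point} (hR : R ∈ oddPoints W) :
    frobK W R ∈ oddPoints W :=
  map_pow_mem_oddPoints (frobAlg r W.FunctionField) (frobAlg_apply _) hR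

theorem deg_frobK (hΔ : W.Δ ≠ 0) {R : (W⁄W.FunctionField).Point} (hR : R ∈ oddPoints W) :
    deg W (frobK W R) = r * deg W R :=
  deg_map_pow hΔ (Fact.out : r.Prime).ne_zero (frobAlg r W.FunctionField) (frobAlg_apply _) hR

/-- the integer valued degree on the group of odd points. -/
noncomputable def dOdd : ↥(oddPoints W) → ℤ := fun R => (deg W (R : (W⁄W.FunctionField).Point) : ℤ)

theorem dOdd_PL (hΔ : W.Δ ≠ 0) (x y : ↥(oddPoints W)) :
    dOdd W (x + y) + dOdd W (x - y) = 2 * dOdd W x + 2 * dOdd W y := by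
  unfold dOdd
  have := deg_add_add_deg_sub hΔ x.2 y.2
  push_cast
  exact_mod_cast this

/-- an odd point `T` of degree `0` does not change degrees: `deg (T + S) = deg S`. -/
theorem deg_add_of_deg_eq_zero (hΔ : W.Δ ≠ 0) {T S : (W⁄W.FunctionField).Point}
    (hT : T ∈ oddPoints W) (hS : S ∈ oddPoints W) (h0 : deg W T = 0) :
    deg W (T + S) = deg W S := by
  have := d_add_of_d_eq_zero (d := dOdd W) (dOdd_PL W hΔ) (fun x => by unfold dOdd; positivity)
    (T := ⟨T, hT⟩) (by unfold dOdd; simp [h0]) ⟨S, hS⟩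
  unfold dOdd at this
  exact_mod_cast this

/-- `deg (P₀ - φ P₀) > 0`. -/
theorem deg_sub_frob_pos (hΔ : W.Δ ≠ 0) :
    0 < deg W (genericPoint W hΔ - frobK W (genericPoint W hΔ)) := by
  by_contra hcon
  have h0 : deg W (genericPoint W hΔ - frobK W (genericPoint W hΔ)) = 0 := by omega
  have hP := genericPoint_mem_oddPoints W hΔ
  have hφ := frobK_mem_oddPoints W hP
  -- `φ P₀ = -(P₀ - φ P₀) + P₀`
  have h1 := deg_add_of_deg_eq_zero W hΔ (neg_mem (sub_mem hP hφ)) hP (by rw [deg_neg]; exact h0)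
  have e : -(genericPoint W hΔ - frobK W (genericPoint W hΔ)) + genericPoint W hΔ
      = frobK W (genericPoint W hΔ) := by abel
  rw [e, deg_frobK W hΔ hP, deg_genericPoint hΔ, mul_one] at h1
  have := (Fact.out : r.Prime).two_le
  omega

/-- `deg (P₀ + φ P₀) > 0`. -/
theorem deg_add_frob_pos (hΔ : W.Δ ≠ 0) :
    0 < deg W (genericPoint W hΔ + frobK W (genericPoint W hΔ)) := by
  by_contra hcon
  have h0 : deg W (genericPoint W hΔ + frobK W (genericPoint W hΔ)) = 0 := by omega
  have hP := genericPoint_mem_oddPoints W hΔ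
  have hφ := frobK_mem_oddPoints W hP
  have h1 := deg_add_of_deg_eq_zero W hΔ (add_mem hP hφ) (neg_mem hP) h0
  have e : genericPoint W hΔ + frobK W (genericPoint W hΔ) + -genericPoint W hΔ
      = frobK W (genericPoint W hΔ) := by abel
  rw [e, deg_frobK W hΔ hP, deg_neg, deg_genericPoint hΔ, mul_one] at h1
  have := (Fact.out : r.Prime).two_le
  omega

end Pos


/-! ### Points over an algebraically closed field -/

section Points

variable {F : Type*} [Field F] [DecidableEq F] {E : Affine F}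

/-- the `x`-coordinate of a point (`0` at infinity). -/
def xc : E.Point → F
  | .zero => 0
  | .some a _ _ => a

@[simp] theorem xc_some {a b : F} (h : E.Nonsingular a b) : xc (Point.some a b h) = a := rfl

theorem xc_neg (Q : E.Point) : xc (-Q) = xc Q := by
  rcases Q with _ | ⟨a, b, h⟩
  · rfl
  · rw [Point.neg_some]; rfl

/-- two affine points with the same `x`-coordinate are equal or opposite. -/
theorem eq_or_eq_neg_of_x_eq {a b b' : F} (h : E.Nonsingular a b) (h' : E.Nonsingular a b') :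
    Point.some a b' h' = Point.some a b h ∨ Point.some a b' h' = -Point.some a b h := by
  rcases Y_eq_of_X_eq h'.1 h.1 rfl with hy | hy
  · left; subst hy; rfl
  · right; rw [Point.neg_some]; subst hy; rfl

theorem eq_or_eq_neg_of_xc_eq {Q Q' : E.Point} (hQ : Q ≠ 0) (hQ' : Q' ≠ 0) (hx : xc Q' = xc Q) :
    Q' = Q ∨ Q' = -Q := by
  rcases Q with _ | ⟨a, b, h⟩
  · exact absurd rfl hQ
  rcases Q' with _ | ⟨a', b', h'⟩
  · exact absurd rfl hQ'
  simp only [xc_some] at hx
  subst hx
  exact eq_or_eq_neg_of_x_eq h h'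

/-- the `x`-coordinate of the double of a point. -/
theorem x_double {a b u v : F} (h : E.Nonsingular a b) (h' : E.Nonsingular u v)
    (hd : Point.some a b h + Point.some a b h = Point.some u v h') :
    fh E a 1 ≠ 0 ∧ u = gh E a 1 / fh E a 1 := by
  obtain ⟨c, hc, h1, h2⟩ := dbl_rel (Point.some a b h)
  rw [hd] at h1 h2
  simp only [Point.xRep_some, Matrix.cons_val_zero, Matrix.cons_val_one, mul_one] at h1 h2
  refine ⟨by rw [h1]; exact hc, ?_⟩
  rw [h1, h2]
  field_simp

/-- a point of order two has an `x`-coordinate killed by the duplication form `fh`. -/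
theorem fh_eq_zero_of_eq_neg {u v : F} (h : E.Nonsingular u v)
    (hT : Point.some u v h = -Point.some u v h) : fh E u 1 = 0 := by
  rw [Point.neg_some] at hT
  have hy : v = E.negY u v := (Point.some.inj hT).2
  exact (dbl_some_of_Y_eq h hy).1

/-- the polynomial whose roots are the `x`-coordinates of the points of order two. -/
noncomputable def twoPoly (E : Affine F) : F[X] :=
  C 4 * X ^ 3 + C E.b₂ * X ^ 2 + C (2 * E.b₄) * X + C E.b₆

theorem eval_twoPoly (u : F) : (twoPoly E).eval u = fh E u 1 := by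
  simp only [twoPoly, fh, eval_add, eval_mul, eval_C, eval_pow, eval_X]
  ring

theorem twoPoly_ne_zero (hΔ : E.Δ ≠ 0) : twoPoly E ≠ 0 := by
  intro h0
  apply not_two_a₁_a₃_eq_zero E hΔ
  have c3 := congrArg (fun p : F[X] => p.coeff 3) h0
  have c2 := congrArg (fun p : F[X] => p.coeff 2) h0
  have c0 := congrArg (fun p : F[X] => p.coeff 0) h0
  simp only [twoPoly, coeff_add, coeff_C_mul, coeff_X_pow, coeff_X, coeff_C, coeff_zero] at c3 c2 c0
  norm_num at c3 c2 c0
  have h2 : (2 : F) = 0 := by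
    have : (2 : F) * 2 = 0 := by rw [← c3]; norm_num
    exact mul_self_eq_zero.mp this
  have h4 : (4 : F) = 0 := c3
  refine ⟨h2, ?_, ?_⟩
  · have : E.a₁ ^ 2 = 0 := by
      have hb := c2
      simp only [WeierstrassCurve.b₂] at hb
      rw [h4, zero_mul, add_zero] at hb
      exact hb
    exact pow_eq_zero_iff (by norm_num) |>.mp this
  · have : E.a₃ ^ 2 = 0 := by
      have hb := c0
      simp only [WeierstrassCurve.b₆] at hb
      rw [h4, zero_mul, add_zero] at hb
      exact hb
    exact pow_eq_zero_iff (by norm_num) |>.mp this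

/-- over an algebraically closed field every `a` is the `x`-coordinate of a point. -/
theorem exists_nonsingular [IsAlgClosed F] (hΔ : E.Δ ≠ 0) (a : F) : ∃ b : F, E.Nonsingular a b := by
  set c₁ : F := E.a₁ * a + E.a₃ with hc₁
  set c₀ : F := a ^ 3 + E.a₂ * a ^ 2 + E.a₄ * a + E.a₆ with hc₀
  have hdeg : (C (1 : F) * X ^ 2 + C c₁ * X + C (-c₀) : F[X]).degree ≠ 0 := by
    rw [degree_quadratic one_ne_zero]
    norm_num
  obtain ⟨b, hb⟩ := IsAlgClosed.exists_root _ hdeg
  refine ⟨b, (equation_iff_nonsingular_of_Δ_ne_zero hΔ).mp ?_⟩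
  rw [equation_iff]
  simp only [IsRoot.def, eval_add, eval_mul, eval_pow, eval_X, eval_C] at hb
  rw [hc₁, hc₀] at hb
  linear_combination hb

end Points


/-! ### The counting argument -/

section Count

variable {r : ℕ} [Fact r.Prime] (W : Affine (ZMod r))
variable (Ω : Type*) [Field Ω] [Algebra (ZMod r) Ω] [DecidableEq Ω]

/-- Frobenius on `W(Ω)`. -/
noncomputable abbrev frobΩ : (W⁄Ω).Point →+ (W⁄Ω).Point := Point.map (W' := W) (frobAlg r Ω)

theorem frobΩ_some {a b : Ω} (h : (W⁄Ω).Nonsingular a b) :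
    ∃ h' : (W⁄Ω).Nonsingular (a ^ r) (b ^ r),
      frobΩ W Ω (Point.some a b h) = Point.some (a ^ r) (b ^ r) h' :=
  ⟨_, rfl⟩

/-- a point with Frobenius-fixed `x`-coordinate is sent to `±` itself. -/
theorem frobΩ_eq_or_neg {a b : Ω} (h : (W⁄Ω).Nonsingular a b) (ha : a ^ r = a) :
    frobΩ W Ω (Point.some a b h) = Point.some a b h ∨
      frobΩ W Ω (Point.some a b h) = -Point.some a b h := by
  obtain ⟨h', e⟩ := frobΩ_some W Ω h
  rw [e]
  have key : ∀ (a' : Ω) (_ : a' = a) (h'' : (W⁄Ω).Nonsingular a' (b ^ r)),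
      Point.some a' (b ^ r) h'' = Point.some a b h ∨
        Point.some a' (b ^ r) h'' = -Point.some a b h := by
    rintro a' rfl h''
    exact eq_or_eq_neg_of_x_eq h h''
  exact key _ ha h'

/-- **The counting assembly.** -/
theorem manin_count (hΔ : W.Δ ≠ 0) [IsAlgClosed Ω] {U V : (ZMod r)[X]} (hcop : IsCoprime U V)
    (hpos : 0 < ht U V)
    (F1 : ∀ {a b : Ω} (h : (W⁄Ω).Nonsingular a b), a ^ r ≠ a →
      ∃ (a' b' : Ω) (h' : (W⁄Ω).Nonsingular a' b'),
        Point.some a b h - frobΩ W Ω (Point.some a b h) = Point.some a' b' h' ∧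
        a' * aeval a V = aeval a U ∧ aeval a V ≠ 0)
    (F2 : ∀ B : Finset Ω, ∃ u : Ω, u ∉ B ∧
      (U.map (algebraMap (ZMod r) Ω) - C u * V.map (algebraMap (ZMod r) Ω)).roots.Nodup ∧
      Multiset.card (U.map (algebraMap (ZMod r) Ω) - C u * V.map (algebraMap (ZMod r) Ω)).roots
        = ht U V)
    (F3 : Nat.card {Q : (W⁄Ω).Point // frobΩ W Ω Q = Q} = Nat.card W.Point) :
    ht U V = Nat.card W.Point := by
  classical
  set Ub := U.map (algebraMap (ZMod r) Ω) with hUb
  set Vb := V.map (algebraMap (ZMod r) Ω) with hVb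
  have hUe : ∀ a : Ω, Ub.eval a = aeval a U := fun a => by rw [hUb, eval_map_algebraMap]
  have hVe : ∀ a : Ω, Vb.eval a = aeval a V := fun a => by rw [hVb, eval_map_algebraMap]
  have hΔΩ : (W⁄Ω).Δ ≠ 0 := by
    show (W.map (algebraMap (ZMod r) Ω)).Δ ≠ 0
    rw [WeierstrassCurve.map_Δ]
    exact (map_ne_zero_iff _ (algebraMap (ZMod r) Ω).injective).mpr hΔ
  -- the Frobenius-fixed elements of `Ω`
  have hXr : (X ^ r - X : Polynomial Ω) ≠ 0 :=
    FiniteField.X_pow_card_sub_X_ne_zero Ω (Fact.out : r.Prime).one_lt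
  set Fr : Finset Ω := (X ^ r - X : Polynomial Ω).roots.toFinset with hFr
  have hmemFr : ∀ a : Ω, a ∈ Fr ↔ a ^ r = a := by
    intro a
    rw [hFr, Multiset.mem_toFinset, mem_roots hXr, IsRoot.def, eval_sub, eval_pow, eval_X,
      sub_eq_zero]
  -- the bad set
  set B₁ : Finset Ω := Fr.image (fun a => gh (W⁄Ω) a 1 / fh (W⁄Ω) a 1) with hB₁
  set B₂ : Finset Ω := (twoPoly (W⁄Ω)).roots.toFinset with hB₂
  set B₃ : Finset Ω := Fr.image (fun a => Ub.eval a / Vb.eval a) with hB₃
  obtain ⟨u, huB, hnodup, hcard⟩ := F2 (B₁ ∪ B₂ ∪ B₃)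
  have hu1 : u ∉ B₁ := fun h => huB (Finset.mem_union_left _ (Finset.mem_union_left _ h))
  have hu2 : u ∉ B₂ := fun h => huB (Finset.mem_union_left _ (Finset.mem_union_right _ h))
  have hu3 : u ∉ B₃ := fun h => huB (Finset.mem_union_right _ h)
  set Fu : Polynomial Ω := Ub - C u * Vb with hFu
  have hFu0 : Fu ≠ 0 := by
    intro h0
    rw [h0, roots_zero, Multiset.card_zero] at hcard
    omega
  set Roots : Finset Ω := Fu.roots.toFinset with hRoots
  have hRcard : Roots.card = ht U V := by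
    rw [hRoots, Multiset.toFinset_card_of_nodup hnodup, hcard]
  have hmemR : ∀ a, a ∈ Roots ↔ aeval a U = u * aeval a V := by
    intro a
    rw [hRoots, Multiset.mem_toFinset, mem_roots hFu0, IsRoot.def, hFu, eval_sub, eval_mul, eval_C,
      hUe, hVe, sub_eq_zero]
  -- properties of the roots
  have hroot : ∀ a ∈ Roots, aeval a V ≠ 0 ∧ a ^ r ≠ a := by
    intro a ha
    have e := (hmemR a).mp ha
    have hV0 : aeval a V ≠ 0 := by
      intro h0
      rw [h0, mul_zero] at e
      obtain ⟨p, q, hpq⟩ := hcop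
      have := congrArg (aeval a) hpq
      rw [map_add, map_mul, map_mul, e, h0, mul_zero, mul_zero, add_zero, map_one] at this
      exact zero_ne_one this
    refine ⟨hV0, ?_⟩
    intro har
    apply hu3
    rw [hB₃, Finset.mem_image]
    refine ⟨a, (hmemFr a).mpr har, ?_⟩
    rw [hUe, hVe, e]
    field_simp
  -- the homomorphism `ψ = 1 - φ`
  let ψ : (W⁄Ω).Point →+ (W⁄Ω).Point := AddMonoidHom.id _ - frobΩ W Ω
  have hψ : ∀ Q, ψ Q = Q - frobΩ W Ω Q := fun Q => rfl
  -- lifting the roots
  have hlift : ∀ a ∈ Roots, ∃ (b v : Ω) (h : (W⁄Ω).Nonsingular a b)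
      (h' : (W⁄Ω).Nonsingular u v), ψ (Point.some a b h) = Point.some u v h' := by
    intro a ha
    obtain ⟨hV0, har⟩ := hroot a ha
    obtain ⟨b, hb⟩ := exists_nonsingular hΔΩ a
    obtain ⟨a', b', h', e1, e2, -⟩ := F1 hb har
    have hau : a' = u := by
      have e := (hmemR a).mp ha
      rw [e] at e2
      exact mul_right_cancel₀ hV0 e2
    subst hau
    exact ⟨b, b', hb, h', e1⟩
  -- a base point
  obtain ⟨a₀, ha₀⟩ : Roots.Nonempty := by
    rw [← Finset.card_pos, hRcard]; exact hpos
  obtain ⟨b₀, v₀, h₀, hT, eT⟩ := hlift a₀ ha₀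
  set T : (W⁄Ω).Point := Point.some u v₀ hT with hTdef
  have hTne : T ≠ -T := by
    intro h
    apply hu2
    rw [hB₂, Multiset.mem_toFinset, mem_roots (twoPoly_ne_zero hΔΩ), IsRoot.def, eval_twoPoly]
    exact fh_eq_zero_of_eq_neg hT h
  have hT0 : T ≠ 0 := Point.some_ne_zero hT
  -- the fibre of `ψ` over `T`
  have hfib : ∀ Q, ψ Q = T → Q ≠ 0 ∧ xc Q ∈ Roots := by
    intro Q hQ
    have hQ0 : Q ≠ 0 := by
      rintro rfl
      rw [map_zero] at hQ
      exact hT0 hQ.symm
    refine ⟨hQ0, ?_⟩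
    rcases Q with _ | ⟨a, b, h⟩
    · exact absurd rfl hQ0
    rw [xc_some]
    by_cases har : a ^ r = a
    · exfalso
      rcases frobΩ_eq_or_neg W Ω h har with hf | hf
      · rw [hψ, hf, sub_self] at hQ
        exact hT0 hQ.symm
      · rw [hψ, hf, sub_neg_eq_add] at hQ
        obtain ⟨-, hu⟩ := x_double h hT hQ
        apply hu1
        rw [hB₁, Finset.mem_image]
        exact ⟨a, (hmemFr a).mpr har, hu.symm⟩
    · obtain ⟨a', b', h', e1, e2, hV0⟩ := F1 h har
      rw [hψ] at hQ
      rw [hQ, hTdef] at e1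
      have hua : u = a' := (Point.some.inj e1).1
      rw [hmemR, ← e2, hua]
  have hinj : ∀ Q Q', ψ Q = T → ψ Q' = T → xc Q' = xc Q → Q' = Q := by
    intro Q Q' hQ hQ' hx
    rcases eq_or_eq_neg_of_xc_eq (hfib Q hQ).1 (hfib Q' hQ').1 hx with h | h
    · exact h
    · exfalso
      rw [h, map_neg, hQ] at hQ'
      exact hTne hQ'.symm
  have hsurj : ∀ a ∈ Roots, ∃ Q, ψ Q = T ∧ xc Q = a := by
    intro a ha
    obtain ⟨b, v, h, h', e⟩ := hlift a ha
    rcases eq_or_eq_neg_of_x_eq hT h' with hv | hv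
    · exact ⟨Point.some a b h, by rw [e, hv], rfl⟩
    · refine ⟨-Point.some a b h, ?_, by rw [xc_neg]; rfl⟩
      rw [map_neg, e, hv, neg_neg]
  -- counting the fibre by the roots
  have c1 : Nat.card {Q : (W⁄Ω).Point // ψ Q = T} = Roots.card := by
    have hb : Nat.card {Q : (W⁄Ω).Point // ψ Q = T} = Nat.card Roots := by
      apply Nat.card_eq_of_bijective
        (fun Q : {Q : (W⁄Ω).Point // ψ Q = T} => (⟨xc Q.1, (hfib Q.1 Q.2).2⟩ : Roots))
      constructor
      · intro Q Q' hQQ
        have hx : xc Q.1 = xc Q'.1 := congrArg Subtype.val hQQ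
        exact Subtype.ext (hinj Q'.1 Q.1 Q'.2 Q.2 hx)
      · rintro ⟨a, ha⟩
        obtain ⟨Q, hQ, hx⟩ := hsurj a ha
        exact ⟨⟨Q, hQ⟩, Subtype.ext hx⟩
    rw [hb, Nat.card_eq_fintype_card, Fintype.card_coe]
  -- counting the fibre by the kernel
  have c2 : Nat.card {Q : (W⁄Ω).Point // ψ Q = T} =
      Nat.card {Q : (W⁄Ω).Point // frobΩ W Ω Q = Q} := by
    apply Nat.card_congr
    refine
      { toFun := fun Q => ⟨Q.1 - Point.some a₀ b₀ h₀, ?_⟩
        invFun := fun K => ⟨K.1 + Point.some a₀ b₀ h₀, ?_⟩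
        left_inv := fun Q => Subtype.ext (by simp)
        right_inv := fun K => Subtype.ext (by simp) }
    · have h1 : ψ (Q.1 - Point.some a₀ b₀ h₀) = 0 := by
        rw [map_sub, Q.2, eT, sub_self]
      rw [hψ, sub_eq_zero] at h1
      exact h1.symm
    · have h1 : ψ K.1 = 0 := by rw [hψ, K.2, sub_self]
      rw [map_add, h1, zero_add, eT]
  rw [← hRcard, ← c1, c2, F3]

end Count


/-! ### Manin's lemma from the four bricks -/

section Final

variable {r : ℕ} [Fact r.Prime] (W : Affine (ZMod r)) [DecidableEq W.FunctionField]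
variable (Ω : Type*) [Field Ω] [Algebra (ZMod r) Ω] [IsAlgClosed Ω] [DecidableEq Ω]

/-- **Manin's lemma `deg (P₀ - φ P₀) = #W(𝔽_r)`**, from the bricks (F1) specialisation of `P₀ - φ P₀`,
(F2) good values, (F3) Frobenius-fixed points are rational, (F4) the Wronskian of the `x`-ratio of
`P₀ - φ P₀` does not vanish; all taken as hypotheses of the shapes announced by their owners. -/
theorem manin_of_bricks (hΔ : W.Δ ≠ 0)
    (F1 : ∀ {U V : (ZMod r)[X]},
      IsXRatio W (genericPoint W hΔ - frobK W (genericPoint W hΔ)) U V →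
      ∀ {a b : Ω} (h : (W⁄Ω).Nonsingular a b), a ^ r ≠ a →
      ∃ (a' b' : Ω) (h' : (W⁄Ω).Nonsingular a' b'),
        Point.some a b h - frobΩ W Ω (Point.some a b h) = Point.some a' b' h' ∧
        a' * aeval a V = aeval a U ∧ aeval a V ≠ 0)
    (F2 : ∀ {A B : Polynomial Ω}, IsCoprime A B → derivative A * B - A * derivative B ≠ 0 →
      ∀ S : Finset Ω, ∃ u : Ω, u ∉ S ∧ (A - C u * B).roots.Nodup ∧
        Multiset.card (A - C u * B).roots = max A.natDegree B.natDegree)
    (F3 : Nat.card {Q : (W⁄Ω).Point // frobΩ W Ω Q = Q} = Nat.card W.Point)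
    (F4 : ∀ {xR yR : W.FunctionField} (h : (W⁄W.FunctionField).Nonsingular xR yR),
      genericPoint W hΔ - frobK W (genericPoint W hΔ) = Point.some xR yR h →
      ∀ {U V : (ZMod r)[X]}, IsCoprime U V →
        xR * algebraMap (ZMod r)[X] W.FunctionField V = algebraMap (ZMod r)[X] W.FunctionField U →
        derivative U * V - U * derivative V ≠ 0) :
    deg W (genericPoint W hΔ - frobK W (genericPoint W hΔ)) = Nat.card W.Point := by
  have hP := genericPoint_mem_oddPoints W hΔ
  have hodd : genericPoint W hΔ - frobK W (genericPoint W hΔ) ∈ oddPoints W :=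
    sub_mem hP (frobK_mem_oddPoints W hP)
  have hpos := deg_sub_frob_pos W hΔ
  obtain ⟨U, V, hUV⟩ := exists_isXRatio hΔ hodd
  rw [deg_eq_of_isXRatio hUV] at hpos ⊢
  -- the Wronskian
  have hw : derivative U * V - U * derivative V ≠ 0 := by
    rcases hR : genericPoint W hΔ - frobK W (genericPoint W hΔ) with _ | ⟨xR, yR, h⟩
    · exfalso
      have h0 : deg W (genericPoint W hΔ - frobK W (genericPoint W hΔ)) = 0 := by
        rw [hR]; exact deg_zero
      rw [deg_eq_of_isXRatio hUV] at h0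
      omega
    · have hUV' := hUV
      rw [hR] at hUV'
      obtain ⟨hc, e⟩ := (isXRatio_some_iff h).mp hUV'
      exact F4 h hR hc e
  set f := algebraMap (ZMod r) Ω with hf
  have hfinj : Function.Injective f := (algebraMap (ZMod r) Ω).injective
  have hw' : derivative (U.map f) * V.map f - U.map f * derivative (V.map f) ≠ 0 := by
    rw [derivative_map, derivative_map, ← Polynomial.map_mul, ← Polynomial.map_mul,
      ← Polynomial.map_sub]
    exact (Polynomial.map_ne_zero_iff hfinj).mpr hw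
  have hc' : IsCoprime (U.map f) (V.map f) := hUV.1.map (mapRingHom f)
  refine manin_count W Ω hΔ hUV.1 hpos (F1 hUV) ?_ F3
  intro S
  obtain ⟨u, hu, hn, hcard⟩ := F2 hc' hw' S
  refine ⟨u, hu, hn, ?_⟩
  rw [hcard, natDegree_map_eq_of_injective hfinj, natDegree_map_eq_of_injective hfinj]
  rfl

end Final

end Fermat.Agent.FrobRelB.ManinCount32
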