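/-
S58 programme, Team B, brick (F1) (helper87): **specialisation of `P₀ − φ P₀`.**

`r` a prime, `k = ZMod r`, `W` a Weierstrass curve over `k` with `Δ ≠ 0`, `K = W.FunctionField`,
`P₀ = (x, y) ∈ W(K)` the generic point, `φ` the `r`-power Frobenius.  If `(U, V)` is an `x`-ratio of
`P₀ − φ P₀`, then for EVERY field `Ω ⊇ k` and every point `P = (a, b) ∈ W(Ω)` with `a ^ r ≠ a`, the point
`P − φ P` is affine with `x`-coordinate `U(a) / V(a)`, and `V(a) ≠ 0`.

The proof is a denominator-free comparison: both over `K` and over `Ω` the chord formula gives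
`x(P − φP) · (x − x^r)² = num(x, y)` for ONE polynomial expression `num` with coefficients in `k`
(`sub_some_of_X_ne`, `numSF`); the identity `num(x, y) · V(x) = U(x) · (x − x^r)²` in `K` descends to the
coordinate ring `k[W]` (injectivity of `k[W] → K`) and is then evaluated at `(a, b)` (`evalHom`).
-/
import Mathlib
import Fermat.Agent.Q58R.Deg
import Fermat.Agent.FrobRel.ManinDefs

set_option autoImplicit false

open Polynomial
open scoped Polynomial.Bivariate

namespace Fermat.Agent.FrobRelB.SpecSubFrob87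

open WeierstrassCurve WeierstrassCurve.Affine
open Fermat.Agent.ES.Q58.IotaDescent23 Fermat.Agent.ES.Q58.SubstEmb17
open Fermat.Agent.FrobRel.ManinDefs Fermat.Agent.Q58R.Deg

/-- **the chord formula for a difference, denominator free**: if `x₁ ≠ x₂` then
`(x₁, y₁) − (x₂, y₂)` is an affine point whose `x`-coordinate `x₃` satisfies
`x₃ (x₁ − x₂)² = (y₁ − ỹ₂)² + a₁ (y₁ − ỹ₂)(x₁ − x₂) − (a₂ + x₁ + x₂)(x₁ − x₂)²`, `ỹ₂ = negY x₂ y₂`. -/
theorem sub_some_of_X_ne {F : Type*} [Field F] [DecidableEq F] {E : Affine F} {x₁ y₁ x₂ y₂ : F}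
    (h₁ : E.Nonsingular x₁ y₁) (h₂ : E.Nonsingular x₂ y₂) (hx : x₁ ≠ x₂) :
    ∃ (x₃ y₃ : F) (h₃ : E.Nonsingular x₃ y₃),
      Point.some x₁ y₁ h₁ - Point.some x₂ y₂ h₂ = Point.some x₃ y₃ h₃ ∧
      x₃ * (x₁ - x₂) ^ 2 = (y₁ - E.negY x₂ y₂) ^ 2 + E.a₁ * (y₁ - E.negY x₂ y₂) * (x₁ - x₂)
        - (E.a₂ + x₁ + x₂) * (x₁ - x₂) ^ 2 := by
  have h₂' : E.Nonsingular x₂ (E.negY x₂ y₂) := (nonsingular_neg ..).mpr h₂
  refine ⟨E.addX x₁ x₂ (E.slope x₁ x₂ y₁ (E.negY x₂ y₂)),
    E.addY x₁ x₂ y₁ (E.slope x₁ x₂ y₁ (E.negY x₂ y₂)),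
    nonsingular_add h₁ h₂' (fun hxy => hx hxy.left), ?_, ?_⟩
  · rw [sub_eq_add_neg, Point.neg_some, Point.add_of_X_ne hx]
  · have hx' : x₁ - x₂ ≠ 0 := sub_ne_zero.mpr hx
    rw [slope_of_X_ne hx, addX]
    field_simp
    ring

/-- the denominator-free numerator of `x(P − φ P)`, `P = (x, y)`, `φ` the `q`-power map. -/
def numSF {k : Type*} [CommRing k] (W : Affine k) (q : ℕ) {A : Type*} [CommRing A] [Algebra k A]
    (x y : A) : A :=
  (y - (-(y ^ q) - algebraMap k A W.a₁ * x ^ q - algebraMap k A W.a₃)) ^ 2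
    + algebraMap k A W.a₁ * (y - (-(y ^ q) - algebraMap k A W.a₁ * x ^ q - algebraMap k A W.a₃))
        * (x - x ^ q)
    - (algebraMap k A W.a₂ + x + x ^ q) * (x - x ^ q) ^ 2

theorem map_numSF {k : Type*} [CommRing k] (W : Affine k) (q : ℕ) {A B : Type*} [CommRing A]
    [Algebra k A] [CommRing B] [Algebra k B] (f : A →ₐ[k] B) (x y : A) :
    f (numSF W q x y) = numSF W q (f x) (f y) := by
  simp only [numSF, map_add, map_sub, map_mul, map_pow, map_neg, AlgHom.commutes]

/-- the chord formula for `P − φ P` over any field `F ⊇ k = ZMod r`. -/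
theorem sub_frob_some {r : ℕ} [Fact r.Prime] (W : Affine (ZMod r)) {F : Type*} [Field F]
    [Algebra (ZMod r) F] [DecidableEq F] {x y : F} (h : (W⁄F).Nonsingular x y) (hx : x ^ r ≠ x) :
    ∃ (x' y' : F) (h' : (W⁄F).Nonsingular x' y'),
      Point.some x y h - Point.map (W' := W) (frobAlg r F) (Point.some x y h) = Point.some x' y' h' ∧
      x' * (x - x ^ r) ^ 2 = numSF W r x y := by
  rw [Point.map_some]
  obtain ⟨x', y', h', e, hx'⟩ := sub_some_of_X_ne h
    ((W.baseChange_nonsingular (frobAlg r F).injective ..).mpr h)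
    (fun hh : x = frobAlg r F x => hx hh.symm)
  refine ⟨x', y', h', e, ?_⟩
  simp only [frobAlg_apply] at hx'
  rw [hx', numSF, negY, baseChange_a₁, baseChange_a₂, baseChange_a₃]

variable {r : ℕ} [Fact r.Prime]

/-- **(F1)** specialisation of `P₀ − φ P₀` at any point `(a, b)` with `a ^ r ≠ a`. -/
theorem spec_sub_frob (W : Affine (ZMod r)) (hΔ : W.Δ ≠ 0) [DecidableEq W.FunctionField]
    {U V : (ZMod r)[X]}
    (hUV : IsXRatio W (genericPoint W hΔ -
      Point.map (W' := W) (frobAlg r W.FunctionField) (genericPoint W hΔ)) U V)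
    {Ω : Type*} [Field Ω] [Algebra (ZMod r) Ω] [DecidableEq Ω] {a b : Ω}
    (h : (W⁄Ω).Nonsingular a b) (ha : a ^ r ≠ a) :
    ∃ (a' b' : Ω) (h' : (W⁄Ω).Nonsingular a' b'),
      Point.some a b h - Point.map (W' := W) (frobAlg r Ω) (Point.some a b h) = Point.some a' b' h' ∧
      a' * aeval a V = aeval a U ∧ aeval a V ≠ 0 := by
  have hr : 1 < r := (Fact.out : r.Prime).one_lt
  -- `x ^ r ≠ x` in `K`
  have hxK : xK W ^ r ≠ xK W := by
    intro hh
    refine transcendental_xK W ⟨X ^ r - X, FiniteField.X_pow_card_sub_X_ne_zero _ hr, ?_⟩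
    rw [map_sub, map_pow, aeval_X, hh, sub_self]
  -- upstairs
  obtain ⟨xR, yR, hR, eR, hxR⟩ := sub_frob_some W (nonsingular_xK_yK W hΔ) hxK
  have hgen : genericPoint W hΔ = Point.some (xK W) (yK W) (nonsingular_xK_yK W hΔ) := rfl
  rw [hgen, eR, isXRatio_some_iff] at hUV
  obtain ⟨hcop, hxUV⟩ := hUV
  -- the identity in `K`
  have hK : numSF W r (xK W) (yK W) * cK W V = cK W U * (xK W - xK W ^ r) ^ 2 := by
    rw [← hxR, ← hxUV]; ring
  -- descend to the coordinate ring
  let ι : W.CoordinateRing →ₐ[ZMod r] W.FunctionField :=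
    IsScalarTower.toAlgHom (ZMod r) W.CoordinateRing W.FunctionField
  set xC : W.CoordinateRing := algebraMap (ZMod r)[X] W.CoordinateRing X with hxC
  set yC : W.CoordinateRing := CoordinateRing.mk W Y with hyC
  have hιx : ι xC = xK W := by
    rw [hxC, xK, IsScalarTower.algebraMap_apply (ZMod r)[X] W.CoordinateRing W.FunctionField]
    rfl
  have hιy : ι yC = yK W := rfl
  have hιc : ∀ p : (ZMod r)[X], ι (algebraMap (ZMod r)[X] W.CoordinateRing p) = cK W p := by
    intro p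
    rw [cK, IsScalarTower.algebraMap_apply (ZMod r)[X] W.CoordinateRing W.FunctionField]
    rfl
  have hC : numSF W r xC yC * algebraMap (ZMod r)[X] W.CoordinateRing V =
      algebraMap (ZMod r)[X] W.CoordinateRing U * (xC - xC ^ r) ^ 2 := by
    have hinj : Function.Injective ι := IsFractionRing.injective W.CoordinateRing W.FunctionField
    apply hinj
    rw [map_mul, map_mul, map_pow, map_sub, map_pow, map_numSF, hιx, hιy, hιc, hιc]
    exact hK
  -- evaluate at `(a, b)`
  have hev := congrArg (evalHom W h.1) hC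
  have hex : evalHom W h.1 xC = a := evalHom_x W h.1
  have hey : evalHom W h.1 yC = b := evalHom_y W h.1
  have hec : ∀ p : (ZMod r)[X],
      evalHom W h.1 (algebraMap (ZMod r)[X] W.CoordinateRing p) = aeval a p := fun p =>
    evalHom_C W h.1 p
  rw [map_mul, map_mul, map_pow, map_sub, map_pow, map_numSF, hex, hey, hec, hec] at hev
  -- downstairs
  obtain ⟨a', b', h', e', ha'⟩ := sub_frob_some W h ha
  have hD : (a - a ^ r) ^ 2 ≠ 0 := pow_ne_zero _ (sub_ne_zero.mpr (Ne.symm ha))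
  have hmain : a' * aeval a V = aeval a U := by
    apply mul_right_cancel₀ hD
    rw [← hev, ← ha']; ring
  refine ⟨a', b', h', e', hmain, ?_⟩
  intro hV0
  obtain ⟨s, t, hst⟩ := hcop
  have h1 := congrArg (aeval a) hst
  rw [map_add, map_mul, map_mul, map_one, hV0, ← hmain, hV0] at h1
  simp at h1

end Fermat.Agent.FrobRelB.SpecSubFrob87
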