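/-
S58 programme, brick (a3) = MANIN'S LEMMA, final wiring (helper87).

`manin` : `deg W (P₀ − φ P₀) = #W(𝔽_r)` for the degree of `Q58R/Deg`, from helper76's `Manin76.manin_of`
and the three sub-bricks (MA) `ManinMA80.wronskian_ne_zero`, (MB) `ManinMB74.frob_map_ofId` /
`exists_of_frob_fixed`, (MC) `ManinMC38.two_nsmul_genericPoint_not_mem_algPoints`.

`frobenius_relation` : the unconditional Frobenius relation on every point (target signature of
report 129), via `FrobRelB.Main.frobenius_relation_of_manin`.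
-/
import Mathlib
import Fermat.Agent.Q58R.Deg
import Fermat.Agent.FrobRel.Manin76
import Fermat.Agent.FrobRel.ManinMA80
import Fermat.Agent.FrobRel.ManinMB74
import Fermat.Agent.FrobRel.ManinMC38
import Fermat.Agent.FrobRelB.SpecSubFrob87
import Fermat.Agent.FrobRelB.Main

set_option autoImplicit false

open Polynomial

namespace Fermat.Agent.FrobRelB.ManinWire87

open WeierstrassCurve WeierstrassCurve.Affine
open Fermat.Agent.ES.Q58.IotaDescent23 Fermat.Agent.ES.Q58.SubstEmb17
open Fermat.Agent.ES.Q58.PLPoly2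
open Fermat.Agent.FrobRel.ManinDefs Fermat.Agent.Q58R.Deg

variable {r : ℕ} [Fact r.Prime]

/-- **Manin's lemma**: `deg (P₀ − φ P₀) = #W(𝔽_r)`. -/
theorem manin (W : Affine (ZMod r)) (hΔ : W.Δ ≠ 0) [DecidableEq W.FunctionField] :
    deg W (Fermat.Agent.ES.Q58.IotaDescent23.genericPoint W hΔ -
      Point.map (W' := W) (frobAlg r W.FunctionField)
        (Fermat.Agent.ES.Q58.IotaDescent23.genericPoint W hΔ)) = Nat.card W.Point := by
  classical
  have hr : 1 < r := (Fact.out : r.Prime).one_lt
  have hxK : xK W ^ r ≠ xK W := by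
    intro hh
    refine transcendental_xK W ⟨X ^ r - X, FiniteField.X_pow_card_sub_X_ne_zero _ hr, ?_⟩
    rw [map_sub, map_pow, aeval_X, hh, sub_self]
  obtain ⟨xR, yR, h, hR, -⟩ :=
    Fermat.Agent.FrobRelB.SpecSubFrob87.sub_frob_some W (nonsingular_xK_yK W hΔ) hxK
  have hR' : Fermat.Agent.ES.Q58.IotaDescent23.genericPoint W hΔ -
      Point.map (W' := W) (frobAlg r W.FunctionField)
        (Fermat.Agent.ES.Q58.IotaDescent23.genericPoint W hΔ) = Point.some xR yR h := hR
  have hodd : Fermat.Agent.ES.Q58.IotaDescent23.genericPoint W hΔ -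
      Point.map (W' := W) (frobAlg r W.FunctionField)
        (Fermat.Agent.ES.Q58.IotaDescent23.genericPoint W hΔ) ∈ oddPoints W :=
    sub_mem (genericPoint_mem_oddPoints W hΔ)
      (map_pow_mem_oddPoints _ (fun z => frobAlg_apply _ z) (genericPoint_mem_oddPoints W hΔ))
  obtain ⟨U, V, hUV⟩ := exists_isXRatio hΔ hodd
  rw [deg_eq_of_isXRatio hUV]
  rw [hR'] at hUV
  obtain ⟨hcop, hx⟩ := (isXRatio_some_iff h).mp hUV
  have hMA : derivative U * V - U * derivative V ≠ 0 :=
    Fermat.Agent.FrobRel.ManinMA80.wronskian_ne_zero W hΔ h hR' hcop hx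
  have hpos : 0 < max U.natDegree V.natDegree := by
    by_contra hcon
    have h0 : max U.natDegree V.natDegree = 0 := by omega
    have hU0 : U.natDegree = 0 := by
      have := le_max_left U.natDegree V.natDegree; omega
    have hV0 : V.natDegree = 0 := by
      have := le_max_right U.natDegree V.natDegree; omega
    apply hMA
    rw [eq_C_of_natDegree_eq_zero hU0, eq_C_of_natDegree_eq_zero hV0]
    simp
  exact Fermat.Agent.FrobRel.Manin76.manin_of W hΔ h hR' hcop hx
    (L := AlgebraicClosure W.FunctionField) hpos hMA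
    (Fermat.Agent.FrobRel.ManinMB74.frob_map_ofId W _)
    (Fermat.Agent.FrobRel.ManinMB74.exists_of_frob_fixed W _)
    (Fermat.Agent.FrobRel.ManinMC38.two_nsmul_genericPoint_not_mem_algPoints W hΔ)

/-- **The Frobenius relation** `φ² − a φ + r = 0`, `a = r + 1 − #E(𝔽_r)`, on every point of an elliptic
curve over `ZMod r` with values in any field `L ⊇ ZMod r` (target signature of report 129). -/
theorem frobenius_relation (E : WeierstrassCurve (ZMod r)) (hΔ : E.Δ ≠ 0)
    {L : Type*} [Field L] [Algebra (ZMod r) L] [DecidableEq L]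
    (F : L →ₐ[ZMod r] L) (hF : ∀ x, F x = x ^ r) (Q : (E⁄L).Point) :
    Point.map (W' := E) F (Point.map (W' := E) F Q)
      - ((r : ℤ) + 1 - (Nat.card E.toAffine.Point : ℤ)) • Point.map (W' := E) F Q
      + (r : ℤ) • Q = 0 := by
  classical
  exact Fermat.Agent.FrobRelB.Main.frobenius_relation_of_manin E hΔ (manin E.toAffine hΔ) F hF Q

end Fermat.Agent.FrobRelB.ManinWire87
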