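/-
Programme S58, Team B, brick (R2) (helper32): **multiplicativity of the degree under substitution
embeddings.**

`k` a field, `W` a Weierstrass curve over `k`, `Δ ≠ 0`, `K = W.FunctionField`, `deg = Q58R.Deg.deg`.
For an odd point `R = (xR, yR) ∈ W(K)` with `xR` transcendental over `k` let
`σ_R = SubstEmb17.substHom : K →ₐ[k] K` (`x ↦ xR`, `y ↦ yR`).

* `substHom_iota`            : `σ_R` commutes with the hyperelliptic involution `ι`;
* `map_substHom_mem_oddPoints` : `σ_R` preserves the odd points;
* `isXRatio_map_substHom`    : `x`-ratios compose (`CompDeg27.homog`);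
* `deg_map_substHom`         : `deg (σ_R S) = deg S * deg R` for odd `S`;
* `transcendental_of_deg_pos`: an odd point of positive degree has a transcendental `x`-coordinate;
* `deg_pos_of_transcendental`: and conversely.
-/
import Mathlib
import Fermat.Agent.Q58R.Deg
import Fermat.Agent.FrobRel.CompDeg27

set_option autoImplicit false
set_option linter.unusedSectionVars false

open Polynomial

namespace Fermat.Agent.FrobRelB.Mult32

open WeierstrassCurve WeierstrassCurve.Affine
open Fermat.Agent.ES.Q58.IotaDescent23 Fermat.Agent.ES.Q58.SubstEmb17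
open Fermat.Agent.ES.Q58.PLPoly2
open Fermat.Agent.Q58R.Deg Fermat.Agent.FrobRel.CompDeg27

variable {k : Type*} [Field k] {W : Affine k} [DecidableEq W.FunctionField]

/-- `cK P = P(x)`. -/
theorem cK_eq_aeval (P : k[X]) : cK W P = aeval (xK W) P := (aeval_xK W P).symm

/-- the substitution embedding at an odd point commutes with the involution `ι`. -/
theorem substHom_iota {xR yR : W.FunctionField} (h : (W⁄W.FunctionField).Nonsingular xR yR)
    (hR : Point.some xR yR h ∈ oddPoints W) (hX : Transcendental k xR) (z : W.FunctionField) :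
    substHom W h.1 hX (iota W z) = iota W (substHom W h.1 hX z) := by
  have key : (substHom W h.1 hX).comp ((iota W : W.FunctionField ≃ₐ[k] W.FunctionField) :
        W.FunctionField →ₐ[k] W.FunctionField) =
      ((iota W : W.FunctionField ≃ₐ[k] W.FunctionField) :
        W.FunctionField →ₐ[k] W.FunctionField).comp (substHom W h.1 hX) := by
    apply Fermat.Agent.ES.Q58.SubstEmb17.algHom_ext
    · simp only [AlgHom.comp_apply, AlgEquiv.coe_toAlgHom]
      rw [iota_xK, substHom_xK, iota_x_of_mem_oddPoints W h hR]
    · simp only [AlgHom.comp_apply, AlgEquiv.coe_toAlgHom]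
      rw [iota_yK, substHom_yK, iota_y_of_mem_oddPoints' W h hR, map_sub, map_sub, map_neg,
        map_mul, substHom_yK, substHom_xK, AlgHom.commutes, AlgHom.commutes]
  exact DFunLike.congr_fun key z

/-- the substitution embedding at an odd point preserves the odd points. -/
theorem map_substHom_mem_oddPoints {xR yR : W.FunctionField}
    (h : (W⁄W.FunctionField).Nonsingular xR yR)
    (hR : Point.some xR yR h ∈ oddPoints W) (hX : Transcendental k xR)
    {S : (W⁄W.FunctionField).Point} (hS : S ∈ oddPoints W) :
    Point.map (W' := W) (substHom W h.1 hX) S ∈ oddPoints W :=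
  map_mem_oddPoints W _ (substHom_iota h hR hX) hS

/-- **`x`-ratios compose.** -/
theorem isXRatio_map_substHom {xR yR : W.FunctionField}
    (h : (W⁄W.FunctionField).Nonsingular xR yR) (hX : Transcendental k xR)
    {A B : k[X]} (hAB : IsXRatio W (Point.some xR yR h) A B)
    {S : (W⁄W.FunctionField).Point} {U V : k[X]} (hUV : IsXRatio W S U V) :
    IsXRatio W (Point.map (W' := W) (substHom W h.1 hX) S)
      (homog U (max U.natDegree V.natDegree) A B) (homog V (max U.natDegree V.natDegree) A B) := by
  obtain ⟨hcAB, eAB⟩ := (isXRatio_some_iff h).mp hAB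
  rcases S with _ | ⟨xS, yS, hS⟩
  · -- the zero point: `V = 0`
    have e := hUV.2
    rw [← Point.zero_def] at e
    simp only [Point.xRep_zero, Matrix.cons_val_zero, Matrix.cons_val_one, one_mul, zero_mul] at e
    have hV : V = 0 := cK_injective W (by rw [e, map_zero])
    refine ⟨isCoprime_homog hUV.1 hcAB, ?_⟩
    rw [← Point.zero_def, Point.map_zero]
    simp only [Point.xRep_zero, Matrix.cons_val_zero, Matrix.cons_val_one, one_mul, zero_mul]
    have : homog V (max U.natDegree V.natDegree) A B = 0 := by
      rw [hV]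
      simp [homog]
    rw [this, map_zero]
  · obtain ⟨hcUV, eUV⟩ := (isXRatio_some_iff hS).mp hUV
    rw [Point.map_some, isXRatio_some_iff]
    refine ⟨isCoprime_homog hcUV hcAB, ?_⟩
    have hz : xR * aeval (xK W) B = aeval (xK W) A := by
      rw [← cK_eq_aeval, ← cK_eq_aeval]; exact eAB
    have hw : substHom W h.1 hX xS * aeval xR V = aeval xR U := by
      have := congrArg (substHom W h.1 hX) eUV
      rwa [map_mul, substHom_algebraMap_polynomial, substHom_algebraMap_polynomial] at this
    have := rel_homog (A := U) (B := V) (U := A) (V := B)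
      (n := max U.natDegree V.natDegree) (le_max_left _ _) (le_max_right _ _) hz hw
    rw [cK_eq_aeval, cK_eq_aeval]
    exact this

/-- **multiplicativity of the degree.** -/
theorem deg_map_substHom (hΔ : W.Δ ≠ 0) {xR yR : W.FunctionField}
    (h : (W⁄W.FunctionField).Nonsingular xR yR)
    (hR : Point.some xR yR h ∈ oddPoints W) (hX : Transcendental k xR)
    {S : (W⁄W.FunctionField).Point} (hS : S ∈ oddPoints W) :
    deg W (Point.map (W' := W) (substHom W h.1 hX) S) = deg W S * deg W (Point.some xR yR h) := by
  obtain ⟨A, B, hAB⟩ := exists_isXRatio hΔ hR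
  obtain ⟨U, V, hUV⟩ := exists_isXRatio hΔ hS
  rw [deg_eq_of_isXRatio hAB, deg_eq_of_isXRatio hUV,
    deg_eq_of_isXRatio (isXRatio_map_substHom h hX hAB hUV)]
  unfold ht
  exact ht_homog hUV.1 hAB.1

/-- an odd point of positive degree has a transcendental `x`-coordinate. -/
theorem transcendental_of_deg_pos (hΔ : W.Δ ≠ 0) {xR yR : W.FunctionField}
    (h : (W⁄W.FunctionField).Nonsingular xR yR)
    (hR : Point.some xR yR h ∈ oddPoints W) (hpos : 0 < deg W (Point.some xR yR h)) :
    Transcendental k xR := by
  obtain ⟨A, B, hAB⟩ := exists_isXRatio hΔ hR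
  rw [deg_eq_of_isXRatio hAB] at hpos
  obtain ⟨hc, e⟩ := (isXRatio_some_iff h).mp hAB
  exact transcendental_of_isCoprime W hc hpos e

/-- a point of positive degree is not zero. -/
theorem ne_zero_of_deg_pos {R : (W⁄W.FunctionField).Point} (hpos : 0 < deg W R) : R ≠ 0 := by
  rintro rfl
  rw [deg_zero] at hpos
  exact lt_irrefl 0 hpos

/-- an odd point of degree zero with an affine representative has an `x`-coordinate in `k`. -/
theorem exists_algebraMap_eq_of_deg_eq_zero (hΔ : W.Δ ≠ 0) {xR yR : W.FunctionField}
    (h : (W⁄W.FunctionField).Nonsingular xR yR)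
    (hR : Point.some xR yR h ∈ oddPoints W) (h0 : deg W (Point.some xR yR h) = 0) :
    ∃ c : k, xR = algebraMap k W.FunctionField c := by
  obtain ⟨A, B, hAB⟩ := exists_isXRatio hΔ hR
  rw [deg_eq_of_isXRatio hAB] at h0
  obtain ⟨hc, e⟩ := (isXRatio_some_iff h).mp hAB
  have hA : A.natDegree = 0 := Nat.eq_zero_of_le_zero ((le_max_left _ _).trans h0.le)
  have hB : B.natDegree = 0 := Nat.eq_zero_of_le_zero ((le_max_right _ _).trans h0.le)
  have hB0 : B ≠ 0 := hAB.ne_zero_of_some
  rw [eq_C_of_natDegree_eq_zero hA, eq_C_of_natDegree_eq_zero hB] at e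
  have hb : B.coeff 0 ≠ 0 := by
    intro hb
    apply hB0
    rw [eq_C_of_natDegree_eq_zero hB, hb, map_zero]
  have e1 : ∀ c : k, cK W (C c) = algebraMap k W.FunctionField c := fun c =>
    (algebraMap_eq_coordinateRing W c).symm
  rw [e1, e1] at e
  have hb' : algebraMap k W.FunctionField (B.coeff 0) ≠ 0 :=
    (map_ne_zero_iff _ (algebraMap k W.FunctionField).injective).mpr hb
  refine ⟨A.coeff 0 / B.coeff 0, ?_⟩
  rw [map_div₀, eq_div_iff hb', e]

end Fermat.Agent.FrobRelB.Mult32
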